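import Mathlib
import Fermat.Agent.Lib.Deuring.Basic

set_option autoImplicit false
set_option linter.style.haveILetI false

/-!
# S27, block C5 (helper20): the LATTICE property from an orthonormal cover (abstract part)

`S : Deuring.ValSetup K F k Fk` a constant reduction.  A family `e : ι → F` is *orthonormal* if
`e i ∈ Ov` and the reductions `S.red (e i)` are `k`-linearly independent.

* `lat_exists_pivot_basis` : every finite-dimensional `K`-subspace of `ι →₀ K` has a basis with
  coordinates in `A` whose coordinatewise reductions are `k`-linearly independent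
  (Gaussian elimination, pivot = coordinate of maximal absolute value; any valuation ring).
* `hasLattice_of_cover` : if every finite subset of `F` lies in the `K`-span of an orthonormal
  family, then `S` has the lattice property `Deuring.HasLattice`.
-/

noncomputable section

namespace Fermat.Agent.S27GR

open Fermat.Agent.Deuring

section Elim

variable {K : Type*} [Field K] (A : ValuationSubring K) {k : Type*} [Field k] (res : A →+* k)

open Classical in
/-- the residue map as a total function (`0` outside `A`). -/
def latRes (c : K) : k := if h : c ∈ A then res ⟨c, h⟩ else 0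

theorem latRes_of_mem {c : K} (h : c ∈ A) : latRes A res c = res ⟨c, h⟩ := by
  unfold latRes
  rw [dif_pos h]

@[simp] theorem latRes_zero : latRes A res 0 = 0 := by
  rw [latRes_of_mem A res A.zero_mem]
  exact map_zero res

@[simp] theorem latRes_one : latRes A res 1 = 1 := by
  rw [latRes_of_mem A res A.one_mem]
  exact map_one res

variable {ι : Type*}

/-- coordinatewise reduction of a vector. -/
def latRedVec (v : ι →₀ K) : ι →₀ k := v.mapRange (latRes A res) (latRes_zero A res)

@[simp] theorem latRedVec_apply (v : ι →₀ K) (i : ι) :
    latRedVec A res v i = latRes A res (v i) := by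
  simp [latRedVec]

/-- **Pivot elimination**: a finite-dimensional subspace of `ι →₀ K` has a basis with coordinates
in `A` whose reductions are linearly independent. -/
theorem lat_exists_pivot_basis (W : Submodule K (ι →₀ K)) [FiniteDimensional K W] :
    ∃ (m : ℕ) (v : Fin m → ι →₀ K), (∀ j, v j ∈ W) ∧ (∀ j i, v j i ∈ A) ∧
      Submodule.span K (Set.range v) = W ∧
      LinearIndependent k (fun j => latRedVec A res (v j)) := by
  classical
  induction hd : Module.finrank K W using Nat.strong_induction_on generalizing W with
  | _ d ih =>
    by_cases hW : W = ⊥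
    · subst hW
      refine ⟨0, Fin.elim0, fun j => j.elim0, fun j => j.elim0, ?_, ?_⟩
      · rw [Set.range_eq_empty, Submodule.span_empty]
      · exact linearIndependent_empty_type
    · obtain ⟨w, hwW, hw0⟩ := Submodule.exists_mem_ne_zero_of_ne_bot hW
      have hsupp : w.support.Nonempty := Finsupp.support_nonempty_iff.mpr hw0
      obtain ⟨i₀, hi₀, hmax⟩ := Finset.exists_max_image w.support
        (fun i => A.valuation (w i)) hsupp
      have hwi₀ : w i₀ ≠ 0 := Finsupp.mem_support_iff.mp hi₀
      set u : ι →₀ K := (w i₀)⁻¹ • w with hu
      have huW : u ∈ W := W.smul_mem _ hwW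
      have hui₀ : u i₀ = 1 := by
        rw [hu, Finsupp.smul_apply, smul_eq_mul, inv_mul_cancel₀ hwi₀]
      have huA : ∀ i, u i ∈ A := by
        intro i
        rw [hu, Finsupp.smul_apply, smul_eq_mul]
        by_cases hi : i ∈ w.support
        · rw [← ValuationSubring.valuation_le_one_iff, map_mul, map_inv₀]
          have hv0 : A.valuation (w i₀) ≠ 0 := (Valuation.ne_zero_iff _).mpr hwi₀
          rw [inv_mul_le_iff₀ (zero_lt_iff.mpr hv0), mul_one]
          exact hmax i hi
        · rw [Finsupp.notMem_support_iff.mp hi, mul_zero]
          exact A.zero_mem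
      set W' : Submodule K (ι →₀ K) := W ⊓ LinearMap.ker (Finsupp.lapply (R := K) i₀) with hW'
      have hW'le : W' ≤ W := inf_le_left
      have huW' : u ∉ W' := by
        intro h
        have h1 : u i₀ = 0 := by
          have := h.2
          simpa [LinearMap.mem_ker] using this
        rw [hui₀] at h1
        exact one_ne_zero h1
      have hlt : W' < W := lt_of_le_of_ne hW'le (fun h => huW' (h ▸ huW))
      haveI : FiniteDimensional K W' := Submodule.finiteDimensional_of_le hW'le
      have hrk : Module.finrank K W' < d := hd ▸ Submodule.finrank_lt_finrank_of_lt hlt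
      obtain ⟨m, v, hvW, hvA, hvspan, hvind⟩ := ih _ hrk W' rfl
      have hvi₀ : ∀ j, v j i₀ = 0 := by
        intro j
        have := (hvW j).2
        simpa [LinearMap.mem_ker] using this
      refine ⟨m + 1, Fin.cons u v, ?_, ?_, ?_, ?_⟩
      · intro j
        refine Fin.cases ?_ (fun j => ?_) j
        · simpa using huW
        · simpa using hW'le (hvW j)
      · intro j i
        refine Fin.cases ?_ (fun j => ?_) j
        · simpa using huA i
        · simpa using hvA j i
      · rw [Fin.range_cons, Submodule.span_insert, hvspan]
        apply le_antisymm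
        · refine sup_le ?_ hW'le
          rw [Submodule.span_singleton_le_iff_mem]
          exact huW
        · intro y hy
          have hy' : y - y i₀ • u ∈ W' := by
            refine ⟨W.sub_mem hy (W.smul_mem _ huW), ?_⟩
            simp [LinearMap.mem_ker, hui₀]
          have : y = y i₀ • u + (y - y i₀ • u) := by abel
          rw [this]
          exact Submodule.add_mem_sup (Submodule.smul_mem _ _ (Submodule.mem_span_singleton_self u))
            hy'
      · have hfun : (fun j => latRedVec A res ((Fin.cons u v : Fin (m + 1) → ι →₀ K) j)) =
            Fin.cons (latRedVec A res u) (fun j => latRedVec A res (v j)) := by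
          funext j
          refine Fin.cases ?_ (fun j => ?_) j
          · simp
          · simp
        rw [hfun, linearIndependent_finCons]
        refine ⟨hvind, ?_⟩
        intro hmem
        have hle : Submodule.span k (Set.range fun j => latRedVec A res (v j)) ≤
            LinearMap.ker (Finsupp.lapply (R := k) i₀) := by
          rw [Submodule.span_le]
          rintro _ ⟨j, rfl⟩
          simp [LinearMap.mem_ker, hvi₀ j]
        have h1 := hle hmem
        simp [LinearMap.mem_ker, hui₀] at h1

end Elim

section Transfer

variable {K F k Fk : Type*} [Field K] [Field F] [Algebra K F]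
  [Field k] [Field Fk] [Algebra k Fk] (S : ValSetup K F k Fk)

variable {ι : Type*}

/-- a linear combination with coefficients in `A` of elements of `Ov` lies in `Ov`, and its
reduction is the reduced linear combination. -/
theorem lat_red_linearCombination (e : ι → F) (he : ∀ i, e i ∈ S.Ov) (c : ι →₀ K)
    (hc : ∀ i, c i ∈ S.A) :
    Finsupp.linearCombination K e c ∈ S.Ov ∧
      S.red (Finsupp.linearCombination K e c) =
        Finsupp.linearCombination k (fun i => S.red (e i)) (latRedVec S.A S.res c) := by
  classical
  have key : ∀ s : Finset ι, (∑ i ∈ s, c i • e i) ∈ S.Ov ∧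
      S.red (∑ i ∈ s, c i • e i) = ∑ i ∈ s, latRes S.A S.res (c i) • S.red (e i) := by
    intro s
    induction s using Finset.induction_on with
    | empty => simp
    | insert a s ha ih =>
      rw [Finset.sum_insert ha, Finset.sum_insert ha]
      have h1 : c a • e a ∈ S.Ov := S.smul_mem (hc a) (he a)
      refine ⟨add_mem h1 ih.1, ?_⟩
      rw [S.red_add h1 ih.1, ih.2, S.red_smul (hc a) (he a), latRes_of_mem S.A S.res (hc a)]
  have h1 : Finsupp.linearCombination K e c = ∑ i ∈ c.support, c i • e i := by
    rw [Finsupp.linearCombination_apply, Finsupp.sum]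
  have h2 : Finsupp.linearCombination k (fun i => S.red (e i)) (latRedVec S.A S.res c) =
      ∑ i ∈ c.support, latRes S.A S.res (c i) • S.red (e i) := by
    rw [Finsupp.linearCombination_apply, latRedVec,
      Finsupp.sum_mapRange_index (fun a => by simp), Finsupp.sum]
  rw [h1, h2]
  exact key c.support

/-- **LATTICE from an orthonormal cover**: if every finite subset of `F` lies in the `K`-span of
a family of elements of `Ov` with `k`-linearly independent reductions, then `S` has the lattice
property. -/
theorem hasLattice_of_cover
    (H : ∀ t : Finset F, ∃ (ι : Type) (e : ι → F), (∀ i, e i ∈ S.Ov) ∧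
      LinearIndependent k (fun i => S.red (e i)) ∧
      ∀ f ∈ t, f ∈ Submodule.span K (Set.range e)) :
    HasLattice S := by
  classical
  intro W hWfd
  obtain ⟨t, ht⟩ : W.FG := (Submodule.fg_iff_finiteDimensional W).mpr hWfd
  obtain ⟨ι, e, heO, heind, het⟩ := H t
  set T : (ι →₀ K) →ₗ[K] F := Finsupp.linearCombination K e with hT
  have hpre : ∀ f : F, f ∈ t → ∃ c : ι →₀ K, T c = f := by
    intro f hf
    have := het f hf
    rw [← Finsupp.range_linearCombination] at this
    exact this
  choose! c hc using hpre
  set W' : Submodule K (ι →₀ K) := Submodule.span K (c '' (t : Set F)) with hW'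
  haveI : FiniteDimensional K W' :=
    FiniteDimensional.span_of_finite K (Set.Finite.image _ t.finite_toSet)
  have hmap : Submodule.map T W' = W := by
    rw [hW', Submodule.map_span, Set.image_image, ← ht]
    congr 1
    ext f
    constructor
    · rintro ⟨g, hg, rfl⟩
      show T (c g) ∈ (t : Set F)
      rw [hc g hg]
      exact hg
    · intro hf
      exact ⟨f, hf, hc f hf⟩
  obtain ⟨m, v, hvW, hvA, hvspan, hvind⟩ := lat_exists_pivot_basis S.A S.res W'
  refine ⟨m, fun j => T (v j), ?_, ?_, ?_, ?_⟩
  · intro j
    rw [← hmap]
    exact Submodule.mem_map_of_mem (hvW j)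
  · intro j
    exact (lat_red_linearCombination S e heO (v j) (hvA j)).1
  · rw [← hmap, ← hvspan, Submodule.map_span]
    congr 1
    ext f
    constructor
    · rintro ⟨j, rfl⟩
      exact ⟨v j, ⟨j, rfl⟩, rfl⟩
    · rintro ⟨_, ⟨j, rfl⟩, rfl⟩
      exact ⟨j, rfl⟩
  · have hfun : (fun j => S.red (T (v j))) =
        (Finsupp.linearCombination k (fun i => S.red (e i))) ∘
          (fun j => latRedVec S.A S.res (v j)) := by
      funext j
      exact (lat_red_linearCombination S e heO (v j) (hvA j)).2
    rw [hfun]
    exact hvind.map' _ (LinearMap.ker_eq_bot.mpr heind)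

end Transfer

end Fermat.Agent.S27GR
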