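import Fermat.Agent.S27.GR.AlgStatements

/-!
# Cluster B / GoodRed, work package A2: the tame upper bound for the discriminant

`discUpperTame : DiscUpperTame R Kx L`: for the integral closure `B` of a PID `R` in a finite
separable extension `L` of `Kx = Frac R`, with `R`-basis `β`, and a point `ev : R ↠ κ` with
`κ` of characteristic `0` and kernel `(π)`: if `π ^ m ∣ det (Tr (β i * β j))` then
`m + #{points of B over ev} ≤ [L : Kx]`.

Route: (B) `relNorm (differentIdeal R B) ≤ (d)`; (C) tameness: `¬ P ^ e_P ∣ differentIdeal R B`;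
(D) counting multiplicities in `relNorm`; (E) `∑ e_P f_P = n` and `#points ≤ #primes over (π)`.
-/

set_option autoImplicit false

namespace Fermat.Agent.S27GR

open Polynomial Module
open scoped nonZeroDivisors

noncomputable section

section bridge

variable {R : Type*} [CommRing R] [IsDomain R] [IsPrincipalIdealRing R]
variable {Kx : Type*} [Field Kx] [Algebra R Kx] [IsFractionRing R Kx]
variable {L : Type*} [Field L] [Algebra Kx L] [Algebra R L] [IsScalarTower R Kx L]
variable [FiniteDimensional Kx L] [Algebra.IsSeparable Kx L]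
variable {B : Type*} [CommRing B] [Algebra R B] [Algebra B L] [IsScalarTower R B L]
variable [IsIntegralClosure B R L] [IsDedekindDomain B] [IsFractionRing B L]
variable [Module.IsTorsionFree R B] [Module.Finite R B]

/-- **(B)** the Gram determinant of an `R`-basis of the integral closure divides the norm of every
element of the different. -/
theorem a2_discr_dvd_intNorm {n : ℕ} (β : Fin n → L)
    (hβli : LinearIndependent Kx β) (hn : Module.finrank Kx L = n)
    (hβspan : ∀ y : L, IsIntegral R y → ∃ c : Fin n → R, y = ∑ i, c i • β i)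
    (d : R) (hd : algebraMap R Kx d = gramDet Kx L β)
    (x : B) (hx : x ∈ differentIdeal R B) : d ∣ Algebra.intNorm R B x := by
  classical
  have hcard : Fintype.card (Fin n) = Module.finrank Kx L := by simp [hn]
  have hne : Nonempty (Fin n) := ⟨⟨0, by rw [← hn]; exact Module.finrank_pos⟩⟩
  set bL : Basis (Fin n) Kx L := basisOfLinearIndependentOfCardEqFinrank hβli hcard with hbL
  have hbL_apply : ∀ i, bL i = β i := fun i => by
    rw [hbL, coe_basisOfLinearIndependentOfCardEqFinrank]
  set bL' : Basis (Fin n) Kx L :=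
    (Algebra.traceForm Kx L).dualBasis (traceForm_nondegenerate Kx L) bL with hbL'
  -- the dual basis lies in the dual of `1`
  have hdual : ∀ j, bL' j ∈ FractionalIdeal.dual R Kx (1 : FractionalIdeal B⁰ L) := by
    intro j
    rw [FractionalIdeal.mem_dual (one_ne_zero' (FractionalIdeal B⁰ L))]
    intro a ha
    obtain ⟨b, rfl⟩ := (FractionalIdeal.mem_one_iff _).mp ha
    obtain ⟨c, hc⟩ := hβspan (algebraMap B L b)
      (IsIntegralClosure.isIntegral_iff (A := B).mpr ⟨b, rfl⟩)
    refine ⟨c j, ?_⟩
    have hterm : ∀ i, Algebra.traceForm Kx L (bL' j) (c i • β i) =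
        algebraMap R Kx (c i) * (if i = j then 1 else 0) := by
      intro i
      rw [← algebraMap_smul Kx (c i) (β i), map_smul, smul_eq_mul, ← hbL_apply i, hbL',
        LinearMap.BilinForm.apply_dualBasis_left]
    rw [hc, map_sum, Finset.sum_congr rfl (fun i _ => hterm i)]
    simp
  -- hence `x * bL' j` is integral, with coordinates `C j` in the basis `β`
  have hx' : algebraMap B L x ∈ (FractionalIdeal.dual R Kx (1 : FractionalIdeal B⁰ L))⁻¹ := by
    rw [← coeIdeal_differentIdeal R Kx L B]
    exact (FractionalIdeal.mem_coeIdeal _).mpr ⟨x, hx, rfl⟩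
  have hprod : ∀ j, algebraMap B L x * bL' j ∈ (1 : FractionalIdeal B⁰ L) := by
    intro j
    have := FractionalIdeal.mul_mem_mul hx' (hdual j)
    rwa [inv_mul_cancel₀ (FractionalIdeal.dual_ne_zero R Kx
      (one_ne_zero' (FractionalIdeal B⁰ L)))] at this
  have hC : ∀ j, ∃ c : Fin n → R, algebraMap B L x * bL' j = ∑ i, c i • β i := by
    intro j
    obtain ⟨b, hb⟩ := (FractionalIdeal.mem_one_iff _).mp (hprod j)
    exact hβspan _ (IsIntegralClosure.isIntegral_iff (A := B).mpr ⟨b, hb⟩)
  choose C hC using hC
  -- the matrix of multiplication by `x` in the dual basis is `G * C`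
  set G : Matrix (Fin n) (Fin n) Kx := Matrix.of fun i j => Algebra.trace Kx L (β i * β j) with hG
  set CK : Matrix (Fin n) (Fin n) Kx := Matrix.of fun i j => algebraMap R Kx (C j i) with hCK
  have hmat : Algebra.leftMulMatrix bL' (algebraMap B L x) = G * CK := by
    ext k j
    rw [Algebra.leftMulMatrix_eq_repr_mul, hbL', LinearMap.BilinForm.dualBasis_repr_apply,
      ← hbL', hC j, Matrix.mul_apply, map_sum, LinearMap.sum_apply]
    refine Finset.sum_congr rfl (fun i _ => ?_)
    rw [← algebraMap_smul Kx (C j i) (β i), map_smul, LinearMap.smul_apply, smul_eq_mul,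
      Algebra.traceForm_apply, hbL_apply, hG, hCK, Matrix.of_apply, Matrix.of_apply, mul_comm,
      mul_comm (β i)]
  have hCKdet : CK.det = algebraMap R Kx (Matrix.of fun i j => C j i).det := by
    rw [RingHom.map_det]
    rfl
  have hnorm : algebraMap R Kx (Algebra.intNorm R B x) =
      algebraMap R Kx (d * (Matrix.of fun i j => C j i).det) := by
    rw [Algebra.algebraMap_intNorm (K := Kx) (L := L), Algebra.norm_eq_matrix_det bL', hmat,
      Matrix.det_mul, hCKdet, map_mul, hd]
    rfl
  exact ⟨_, IsFractionRing.injective R Kx hnorm⟩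

end bridge

section tame

variable {R : Type*} [CommRing R] [IsDomain R] [IsDedekindDomain R]
variable {B : Type*} [CommRing B] [Algebra R B] [IsDedekindDomain B]
variable [Module.IsTorsionFree R B] [Module.Finite R B]

attribute [local instance] FractionRing.liftAlgebra Ideal.Quotient.field

set_option linter.overlappingInstances false

/-- **(C)** tameness: if `p B = P' * Q` with `P'`, `Q` coprime, `P' ≠ ⊤` and the residue field of
`p` has characteristic `0`, then `P'` does not divide the different
(the trace of an element `≡ 1 mod P'`, `≡ 0 mod Q` is `dim (B / P') ≠ 0` modulo `p`). -/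
theorem a2_not_dvd_differentIdeal_of_charZero
    [Algebra.IsSeparable (FractionRing R) (FractionRing B)]
    {p : Ideal R} [p.IsMaximal] [CharZero (R ⧸ p)] (P' Q : Ideal B) (hP' : P' ≠ ⊤)
    (hPQ : IsCoprime P' Q) (hP : P' * Q = Ideal.map (algebraMap R B) p) :
    ¬ P' ∣ differentIdeal R B := by
  let _ : Algebra (R ⧸ p) (B ⧸ Q) := Ideal.Quotient.algebraQuotientOfLEComap (by
      rw [← Ideal.map_le_iff_le_comap, ← hP]
      exact Ideal.mul_le_right)
  let _ : Algebra (R ⧸ p) (B ⧸ P') := Ideal.Quotient.algebraQuotientOfLEComap (by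
      rw [← Ideal.map_le_iff_le_comap, ← hP]
      exact Ideal.mul_le_left)
  have : IsScalarTower R (R ⧸ p) (B ⧸ Q) := .of_algebraMap_eq' rfl
  have : IsScalarTower R (R ⧸ p) (B ⧸ P') := .of_algebraMap_eq' rfl
  have : Module.Finite (R ⧸ p) (B ⧸ Q) :=
    Module.Finite.of_restrictScalars_finite R (R ⧸ p) (B ⧸ Q)
  have : Module.Finite (R ⧸ p) (B ⧸ P') :=
    Module.Finite.of_restrictScalars_finite R (R ⧸ p) (B ⧸ P')
  have : Nontrivial (B ⧸ P') := Ideal.Quotient.nontrivial_iff.mpr hP'
  let e : (B ⧸ p.map (algebraMap R B)) ≃ₐ[R ⧸ p] ((B ⧸ P') × B ⧸ Q) :=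
    { __ := (Ideal.quotEquivOfEq hP.symm).trans (Ideal.quotientMulEquivQuotientProd P' Q hPQ),
      commutes' := Quotient.ind fun _ ↦ rfl }
  obtain ⟨y, hy⟩ := Ideal.Quotient.mk_surjective (e.symm (1, 0))
  refine not_dvd_differentIdeal_of_intTrace_not_mem R P' Q hP y ?_ ?_
  · have := congr((e $hy).2)
    simp at this
    simpa [e, Ideal.Quotient.eq_zero_iff_mem] using this
  · rw [← Ideal.Quotient.eq_zero_iff_mem, ← Algebra.trace_quotient_eq_of_isDedekindDomain,
      hy, Algebra.trace_eq_of_algEquiv, Algebra.trace_prod_apply]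
    have h1 : Algebra.trace (R ⧸ p) (B ⧸ P') 1 = (Module.finrank (R ⧸ p) (B ⧸ P') : R ⧸ p) := by
      have := Algebra.trace_algebraMap (S := B ⧸ P') (1 : R ⧸ p)
      rwa [map_one, nsmul_eq_mul, mul_one] at this
    simp only [map_zero, add_zero]
    rw [h1]
    exact_mod_cast (Module.finrank_pos (R := R ⧸ p) (M := B ⧸ P')).ne'

end tame

section count

variable {R : Type*} [CommRing R] [IsDomain R] [IsDedekindDomain R]
variable {B : Type*} [CommRing B] [Algebra R B] [IsDedekindDomain B]
variable [Module.IsTorsionFree R B] [Module.Finite R B]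

open UniqueFactorizationMonoid

set_option linter.overlappingInstances false

/-- **(D)** counting: the multiplicity of `p` in the relative norm of `I` is at most
`∑_{P ∣ p} f_P * (multiplicity of P in I)`. -/
theorem a2_le_sum_count [PerfectField (FractionRing R)] (p : Ideal R) [p.IsMaximal]
    [Fintype (p.primesOver B)] [DecidableEq (Ideal B)] (I : Ideal B) :
    I ≠ ⊥ → ∀ m : ℕ, p ^ m ∣ Ideal.relNorm R I →
      m ≤ ∑ q : p.primesOver B, q.1.inertiaDeg R * Multiset.count q.1 (normalizedFactors I) := by
  induction I using UniqueFactorizationMonoid.induction_on_prime with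
  | h₁ => intro h; exact absurd rfl h
  | h₂ x hx =>
    intro _ m hm
    rw [Ideal.isUnit_iff] at hx
    subst hx
    rw [Ideal.relNorm_top, Ideal.dvd_iff_le, top_le_iff] at hm
    have hm0 : m = 0 := by
      by_contra hne
      have hle : p ^ m ≤ p := Ideal.pow_le_self hne
      rw [hm, top_le_iff] at hle
      exact (Ideal.IsMaximal.ne_top inferInstance) hle
    rw [hm0]
    exact Nat.zero_le _
  | h₃ a Q ha hQ ih =>
    intro _ m hm
    have hQ0 : Q ≠ ⊥ := hQ.ne_zero
    have hQprime : Q.IsPrime := (Ideal.prime_iff_isPrime hQ0).mp hQ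
    have hQmax : Q.IsMaximal := hQprime.isMaximal hQ0
    have hq'max : (Q.under R).IsMaximal := Ideal.IsMaximal.under R Q
    have hrel : Ideal.relNorm R Q = (Q.under R) ^ Q.inertiaDeg R :=
      Ideal.relNorm_eq_pow_of_isMaximal Q (Q.under R)
    have hcount : ∀ q : Ideal B, Multiset.count q (normalizedFactors (Q * a)) =
        (if q = Q then 1 else 0) + Multiset.count q (normalizedFactors a) := by
      intro q
      rw [normalizedFactors_mul hQ0 ha, normalizedFactors_irreducible hQ.irreducible,
        normalize_eq, Multiset.count_add, Multiset.count_singleton]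
    simp_rw [hcount, mul_add, Finset.sum_add_distrib]
    rw [map_mul, hrel] at hm
    by_cases hqp : Q.under R = p
    · -- `Q` lies over `p`
      have hQmem : Q ∈ p.primesOver B := ⟨hQprime, ⟨hqp.symm⟩⟩
      have hsum : ∑ q : p.primesOver B, q.1.inertiaDeg R * (if q.1 = Q then 1 else 0) =
          Q.inertiaDeg R := by
        rw [Finset.sum_eq_single (⟨Q, hQmem⟩ : p.primesOver B)]
        · simp
        · intro q _ hq
          have : q.1 ≠ Q := fun h => hq (Subtype.ext h)
          simp [this]
        · intro h
          exact absurd (Finset.mem_univ _) h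
      rw [hsum]
      rcases le_or_gt m (Q.inertiaDeg R) with hle | hlt
      · exact le_trans hle (Nat.le_add_right _ _)
      · have hp0 : p ^ Q.inertiaDeg R ≠ 0 := by
          intro h0
          have hpbot : p = ⊥ := by
            rcases Nat.eq_zero_or_pos (Q.inertiaDeg R) with hz | hpos
            · rw [hz, pow_zero] at h0
              exact absurd h0 one_ne_zero
            · exact (pow_eq_zero_iff hpos.ne').mp h0
          rw [← hqp] at hpbot
          exact Ideal.under_ne_bot R hQ0 hpbot
        have hsplit : p ^ m = p ^ Q.inertiaDeg R * p ^ (m - Q.inertiaDeg R) := by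
          rw [← pow_add]
          congr 1
          omega
        rw [hqp, hsplit] at hm
        have hm' : p ^ (m - Q.inertiaDeg R) ∣ Ideal.relNorm R a :=
          (mul_dvd_mul_iff_left hp0).mp hm
        have := ih ha _ hm'
        omega
    · -- `Q` lies over another prime
      have hcop : IsCoprime (p ^ m) ((Q.under R) ^ Q.inertiaDeg R) := by
        apply IsCoprime.pow
        rw [Ideal.isCoprime_iff_sup_eq]
        exact Ideal.IsMaximal.coprime_of_ne inferInstance hq'max (Ne.symm hqp)
      have hm' : p ^ m ∣ Ideal.relNorm R a := hcop.dvd_of_dvd_mul_left hm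
      exact le_trans (ih ha m hm') (Nat.le_add_left _ _)

end count

section points

variable {R : Type*} [CommRing R] {B : Type*} [CommRing B] [Algebra R B]

/-- **(E1)** a point of `B` over `ev` is determined by its kernel. -/
theorem a2_point_ext {κ : Type*} [Field κ] (ev : R →+* κ) (hev : Function.Surjective ev)
    (χ χ' : B →+* κ) (hχ : ∀ r : R, χ (algebraMap R B r) = ev r)
    (hχ' : ∀ r : R, χ' (algebraMap R B r) = ev r) (hker : RingHom.ker χ = RingHom.ker χ') :
    χ = χ' := by
  ext y
  obtain ⟨r, hr⟩ := hev (χ y)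
  have h1 : y - algebraMap R B r ∈ RingHom.ker χ := by
    rw [RingHom.mem_ker, map_sub, hχ, hr, sub_self]
  rw [hker, RingHom.mem_ker, map_sub, hχ', sub_eq_zero] at h1
  rw [h1, hr]

/-- **(E2)** the number of points over `ev` is at most the number of primes over `ker ev`. -/
theorem a2_numPts_le {κ : Type*} [Field κ] (ev : R →+* κ) (hev : Function.Surjective ev)
    [Fintype ((RingHom.ker ev).primesOver B)] :
    Nat.card {χ : B →+* κ // ∀ r : R, χ (algebraMap R B r) = ev r} ≤
      Fintype.card ((RingHom.ker ev).primesOver B) := by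
  rw [← Nat.card_eq_fintype_card]
  let F : {χ : B →+* κ // ∀ r : R, χ (algebraMap R B r) = ev r} →
      (RingHom.ker ev).primesOver B := fun χ =>
    ⟨RingHom.ker χ.1, RingHom.ker_isPrime χ.1, ⟨by
      ext r
      rw [Ideal.mem_comap, RingHom.mem_ker, RingHom.mem_ker, χ.2]⟩⟩
  refine Nat.card_le_card_of_injective F ?_
  intro χ χ' h
  have hker : RingHom.ker χ.1 = RingHom.ker χ'.1 := congrArg Subtype.val h
  exact Subtype.ext (a2_point_ext ev hev χ.1 χ'.1 χ.2 χ'.2 hker)

end points

section main

variable {R : Type*} [CommRing R] [IsDomain R] [IsPrincipalIdealRing R]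
variable {Kx : Type*} [Field Kx] [Algebra R Kx] [IsFractionRing R Kx]
variable {L : Type*} [Field L] [Algebra Kx L] [Algebra R L] [IsScalarTower R Kx L]
variable [FiniteDimensional Kx L] [Algebra.IsSeparable Kx L]
variable {B : Type*} [CommRing B] [Algebra R B] [Algebra B L] [IsScalarTower R B L]
variable [IsIntegralClosure B R L] [IsDedekindDomain B] [IsFractionRing B L]
variable [Module.IsTorsionFree R B] [Module.Finite R B]

attribute [local instance] FractionRing.liftAlgebra

open UniqueFactorizationMonoid

omit [FiniteDimensional Kx L] in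
/-- the rank of `B` over `R` is `[L : Kx]`. -/
theorem a2_finrank_eq : Module.finrank R B = Module.finrank Kx L := by
  have : IsLocalization (Algebra.algebraMapSubmonoid B R⁰) L :=
    IsIntegralClosure.isLocalization R Kx L B
  exact (Module.finrank_of_isLocalizedModule_of_free Kx R⁰
    (IsScalarTower.toAlgHom R B L).toLinearMap).symm

/-- **main statement for an abstract integral closure `B`, case `π ≠ 0`.** -/
theorem a2_main {n : ℕ} (β : Fin n → L)
    (hβli : LinearIndependent Kx β) (hn : Module.finrank Kx L = n)
    (hβspan : ∀ y : L, IsIntegral R y → ∃ c : Fin n → R, y = ∑ i, c i • β i)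
    {κ : Type*} [Field κ] [CharZero κ] (ev : R →+* κ) (hev : Function.Surjective ev)
    (π : R) (hπ : RingHom.ker ev = Ideal.span {π}) (hπ0 : π ≠ 0)
    (d : R) (m : ℕ) (hd : algebraMap R Kx d = gramDet Kx L β) (hm : π ^ m ∣ d) :
    m + Nat.card {χ : B →+* κ // ∀ r : R, χ (algebraMap R B r) = ev r} ≤ n := by
  classical
  set p : Ideal R := RingHom.ker ev with hp
  have hpmax : p.IsMaximal := RingHom.ker_isMaximal_of_surjective ev hev
  have hp0 : p ≠ ⊥ := by
    rw [hπ]
    intro h
    exact hπ0 (Ideal.span_singleton_eq_bot.mp h)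
  have hchar0 : CharZero R := RingHom.charZero ev
  have hcharq : CharZero (R ⧸ p) := RingHom.charZero (RingHom.kerLift ev)
  let _ : Fintype (p.primesOver B) := Fintype.ofFinite _
  -- (B): `p ^ m ∣ relNorm 𝔇`
  have hrel : p ^ m ∣ Ideal.relNorm R (differentIdeal R B) := by
    rw [Ideal.dvd_iff_le, hπ, Ideal.span_singleton_pow, Ideal.relNorm_apply, Ideal.span_le]
    rintro _ ⟨x, hx, rfl⟩
    rw [SetLike.mem_coe, Ideal.mem_span_singleton]
    exact hm.trans (a2_discr_dvd_intNorm β hβli hn hβspan d hd x hx)
  -- (D)
  have hD := a2_le_sum_count p (differentIdeal R B) differentIdeal_ne_bot m hrel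
  -- (C): multiplicities in the different are `< e`
  have h𝔓 : Ideal.map (algebraMap R B) p ≠ ⊥ := Ideal.map_ne_bot_of_ne_bot hp0
  have hC : ∀ q : p.primesOver B,
      Multiset.count q.1 (normalizedFactors (differentIdeal R B)) + 1 ≤ q.1.ramificationIdx R := by
    intro q
    have hqprime : q.1.IsPrime := q.2.1
    have hqlies : q.1.LiesOver p := q.2.2
    have hqmax : q.1.IsMaximal := Ideal.primesOver.isMaximal q
    have hq0 : q.1 ≠ ⊥ := Ideal.ne_bot_of_liesOver_of_ne_bot hp0 q.1
    obtain ⟨Q, hQ1, hQ2⟩ := Ideal.eq_prime_pow_mul_coprime h𝔓 q.1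
    rw [← Ideal.IsDedekindDomain.ramificationIdx_eq_normalizedFactors_count p q.1 h𝔓] at hQ2
    have hepos : 0 < q.1.ramificationIdx R := Ideal.ramificationIdx_pos q.1 R
    have hne : q.1 ^ q.1.ramificationIdx R ≠ ⊤ := by
      intro h
      have hle : q.1 ^ q.1.ramificationIdx R ≤ q.1 := Ideal.pow_le_self hepos.ne'
      rw [h, top_le_iff] at hle
      exact hqprime.ne_top hle
    have hcop : IsCoprime (q.1 ^ q.1.ramificationIdx R) Q :=
      IsCoprime.pow_left (Ideal.isCoprime_iff_sup_eq.mpr hQ1)
    have hnd := a2_not_dvd_differentIdeal_of_charZero (p := p) _ Q hne hcop hQ2.symm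
    by_contra hcon
    apply hnd
    rw [pow_dvd_iff_le_emultiplicity,
      emultiplicity_eq_count_normalizedFactors ((Ideal.prime_iff_isPrime hq0).mpr hqprime).irreducible
        differentIdeal_ne_bot, normalize_eq]
    exact_mod_cast (by omega : q.1.ramificationIdx R ≤
      Multiset.count q.1 (normalizedFactors (differentIdeal R B)))
  -- (E)
  have hE : Nat.card {χ : B →+* κ // ∀ r : R, χ (algebraMap R B r) = ev r} ≤
      Fintype.card (p.primesOver B) := a2_numPts_le (B := B) ev hev
  have hsum := Ideal.sum_ramification_inertia_eq_finrank p B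
  rw [a2_finrank_eq (Kx := Kx) (L := L), hn] at hsum
  have hbound : ∀ q : p.primesOver B,
      q.1.inertiaDeg R * Multiset.count q.1 (normalizedFactors (differentIdeal R B)) + 1 ≤
        q.1.ramificationIdx R * q.1.inertiaDeg R := by
    intro q
    have hqprime : q.1.IsPrime := q.2.1
    have hf : 0 < q.1.inertiaDeg R := Ideal.inertiaDeg_pos q.1 R
    have := hC q
    calc q.1.inertiaDeg R * Multiset.count q.1 (normalizedFactors (differentIdeal R B)) + 1
        ≤ q.1.inertiaDeg R * Multiset.count q.1 (normalizedFactors (differentIdeal R B))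
            + q.1.inertiaDeg R := by omega
      _ = q.1.inertiaDeg R *
            (Multiset.count q.1 (normalizedFactors (differentIdeal R B)) + 1) := by ring
      _ ≤ q.1.inertiaDeg R * q.1.ramificationIdx R := Nat.mul_le_mul_left _ this
      _ = q.1.ramificationIdx R * q.1.inertiaDeg R := mul_comm _ _
  have htotal : (∑ q : p.primesOver B,
      q.1.inertiaDeg R * Multiset.count q.1 (normalizedFactors (differentIdeal R B))) +
        Fintype.card (p.primesOver B) ≤ n := by
    rw [← hsum, Fintype.card, Finset.card_eq_sum_ones, ← Finset.sum_add_distrib]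
    exact Finset.sum_le_sum (fun q _ => hbound q)
  omega

end main

section final

variable (R : Type*) [CommRing R] [IsDomain R] [IsPrincipalIdealRing R]
variable (Kx : Type*) [Field Kx] [Algebra R Kx] [IsFractionRing R Kx]
variable (L : Type*) [Field L] [Algebra Kx L] [Algebra R L] [IsScalarTower R Kx L]

/-- the Gram determinant of a `Kx`-basis of a finite separable extension is nonzero. -/
theorem a2_gramDet_ne_zero [FiniteDimensional Kx L] [Algebra.IsSeparable Kx L] {n : ℕ}
    (β : Fin n → L) (hβli : LinearIndependent Kx β) (hn : Module.finrank Kx L = n) :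
    gramDet Kx L β ≠ 0 := by
  classical
  have hcard : Fintype.card (Fin n) = Module.finrank Kx L := by simp [hn]
  have hne : Nonempty (Fin n) := ⟨⟨0, by rw [← hn]; exact Module.finrank_pos⟩⟩
  set bL : Basis (Fin n) Kx L := basisOfLinearIndependentOfCardEqFinrank hβli hcard with hbL
  have hbL_apply : ∀ i, bL i = β i := fun i => by
    rw [hbL, coe_basisOfLinearIndependentOfCardEqFinrank]
  have h := Algebra.discr_not_zero_of_basis Kx bL
  have heq : Algebra.discr Kx bL = gramDet Kx L β := by
    rw [Algebra.discr_def, gramDet]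
    congr 1
    ext i j
    rw [Algebra.traceMatrix_apply, Algebra.traceForm_apply, Matrix.of_apply, hbL_apply,
      hbL_apply]
  rwa [heq] at h

/-- **(ALG-2)** the tame upper bound for the discriminant. -/
theorem discUpperTame : DiscUpperTame R Kx L := by
  intro _ _ n β hβint hβli hn hβspan κ _ _ _ ev hev π hπ d m hd hm
  classical
  have hinj : Function.Injective (algebraMap (integralClosure R L) L) := Subtype.val_injective
  have hDed : IsDedekindDomain (integralClosure R L) := integralClosure.isDedekindDomain R Kx L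
  have hFrac : IsFractionRing (integralClosure R L) L :=
    integralClosure.isFractionRing_of_finite_extension Kx L
  have hFin : Module.Finite R (integralClosure R L) :=
    IsIntegralClosure.finite R Kx L (integralClosure R L)
  unfold numPts
  by_cases hπ0 : π = 0
  · -- the field case: `ev` is injective
    have hker : RingHom.ker ev = ⊥ := by rw [hπ, hπ0]; simp
    have hd0 : d ≠ 0 := by
      intro h
      apply a2_gramDet_ne_zero Kx L β hβli hn
      rw [← hd, h, map_zero]
    have hm0 : m = 0 := by
      by_contra hne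
      apply hd0
      rw [hπ0, zero_pow hne] at hm
      exact zero_dvd_iff.mp hm
    have hnpos : 0 < n := by rw [← hn]; exact Module.finrank_pos
    have hsub : Subsingleton
        {χ : integralClosure R L →+* κ // ∀ r : R, χ (algebraMap R _ r) = ev r} := by
      have hkerbot : ∀ χ : {χ : integralClosure R L →+* κ //
          ∀ r : R, χ (algebraMap R _ r) = ev r}, RingHom.ker χ.1 = ⊥ := by
        intro χ
        apply Ideal.eq_bot_of_comap_eq_bot (R := R)
        rw [← hker]
        ext r
        rw [Ideal.mem_comap, RingHom.mem_ker, RingHom.mem_ker, χ.2]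
      refine ⟨fun χ χ' => Subtype.ext ?_⟩
      exact a2_point_ext ev hev χ.1 χ'.1 χ.2 χ'.2 ((hkerbot χ).trans (hkerbot χ').symm)
    have h1 := Finite.card_le_one_iff_subsingleton.mpr hsub
    omega
  · have hRL : Module.IsTorsionFree R L := Module.IsTorsionFree.trans Kx
    have hRB : Module.IsTorsionFree R (integralClosure R L) :=
      Function.Injective.moduleIsTorsionFree (N := L) (algebraMap (integralClosure R L) L) hinj
        (fun _ _ => rfl)
    exact a2_main (Kx := Kx) (L := L) (B := integralClosure R L) β hβli hn hβspan ev hev π hπ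
      hπ0 d m hd hm

end final

end

end Fermat.Agent.S27GR
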