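import Fermat.Agent.S27.GR.Steps

/-!
# Cluster B / GoodRed: the chart at infinity

`RedModel.inv` replaces the base parameter `x` of a reduction datum by `x⁻¹`
(a unit of the Gauss ring since its reduction is transcendental, in particular nonzero).

* `fibreCard_inv` : `fibreCard K x⁻¹ c⁻¹ = fibreCard K x c` for `c ≠ 0` (no hypothesis on `x`),
  because `B[1/x] = B'[x]` for `B = intCl K x`, `B' = intCl K x⁻¹`.
* `DegData.inv`, `BranchData.inv` : the DEGREE and BRANCH hypotheses pass to the chart at infinity.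
* `FibreBound.at_infty` : the fibre bound of `M.inv` at `0` is the fibre bound at `x = ∞`.
-/

set_option autoImplicit false
set_option linter.style.haveILetI false

namespace Fermat.Agent.S27GR

open Polynomial IntermediateField

noncomputable section

variable {K k F Fk : Type*} [Field K] [Field k] [Field F] [Field Fk] [Algebra K F] [Algebra k Fk]

namespace InvAux

theorem mem_intCl_iff {x y : F} : y ∈ intCl K x ↔ IsIntegral (Algebra.adjoin K {x}) y := Iff.rfl

theorem self_mem_intCl (x : F) : x ∈ intCl K x := by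
  have h : (algebraMap (Algebra.adjoin K {x}) F) (genAdj x) ∈
      integralClosure (Algebra.adjoin K {x}) F := Subalgebra.algebraMap_mem _ _
  exact h

theorem adjoin_le_intCl (x : F) : Algebra.adjoin K {x} ≤ intCl K x := by
  rw [Algebra.adjoin_le_iff]
  intro y hy
  rw [Set.mem_singleton_iff] at hy
  subst hy
  exact self_mem_intCl y

/-- every element of `K[x⁻¹]` becomes an element of `K[x]` after multiplication by a
large power of `x`. -/
theorem exists_pow_mul_mem_adjoin {x : F} (hx : x ≠ 0) (a : F)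
    (ha : a ∈ Algebra.adjoin K {x⁻¹}) :
    ∃ m : ℕ, ∀ m' : ℕ, m ≤ m' → x ^ m' * a ∈ Algebra.adjoin K {x} := by
  have hxm : ∀ i : ℕ, x ^ i ∈ Algebra.adjoin K {x} := fun i =>
    pow_mem (Algebra.subset_adjoin (Set.mem_singleton x)) i
  induction ha using Algebra.adjoin_induction with
  | mem y hy =>
    rw [Set.mem_singleton_iff] at hy
    subst hy
    refine ⟨1, fun m' hm' => ?_⟩
    obtain ⟨j, rfl⟩ := Nat.exists_eq_add_of_le hm'
    have : x ^ (1 + j) * x⁻¹ = x ^ j := by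
      rw [pow_add, pow_one]
      field_simp
    rw [this]
    exact hxm j
  | algebraMap r =>
    exact ⟨0, fun m' _ => mul_mem (hxm m') (Subalgebra.algebraMap_mem _ r)⟩
  | add a b _ _ iha ihb =>
    obtain ⟨ma, hma⟩ := iha
    obtain ⟨mb, hmb⟩ := ihb
    refine ⟨max ma mb, fun m' hm' => ?_⟩
    rw [mul_add]
    exact add_mem (hma m' (le_trans (le_max_left _ _) hm'))
      (hmb m' (le_trans (le_max_right _ _) hm'))
  | mul a b _ _ iha ihb =>
    obtain ⟨ma, hma⟩ := iha
    obtain ⟨mb, hmb⟩ := ihb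
    refine ⟨ma + mb, fun m' hm' => ?_⟩
    obtain ⟨j, rfl⟩ := Nat.exists_eq_add_of_le hm'
    have : x ^ (ma + mb + j) * (a * b) = (x ^ (ma + j) * a) * (x ^ mb * b) := by
      ring
    rw [this]
    exact mul_mem (hma _ (Nat.le_add_right _ _)) (hmb _ le_rfl)

/-- an element integral over `K[x⁻¹]` becomes integral over `K[x]` after multiplication by a
power of `x`. -/
theorem exists_pow_mul_mem_intCl {x : F} (hx : x ≠ 0) {y : F} (hy : y ∈ intCl K x⁻¹) :
    ∃ m : ℕ, x ^ m * y ∈ intCl K x := by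
  obtain ⟨p, hpm, hp⟩ := mem_intCl_iff.mp hy
  choose m hm using fun i : ℕ =>
    exists_pow_mul_mem_adjoin (K := K) hx (p.coeff i : F) (p.coeff i).2
  set N : ℕ := (Finset.range (p.natDegree + 1)).sup m with hN
  have hmN : ∀ i, i ≤ p.natDegree → m i ≤ N := fun i hi =>
    Finset.le_sup (f := m) (Finset.mem_range.mpr (Nat.lt_succ_of_le hi))
  refine ⟨N, ?_⟩
  rw [mem_intCl_iff]
  set pF : F[X] := p.map (algebraMap (Algebra.adjoin K {x⁻¹}) F) with hpF
  have hpFm : pF.Monic := hpm.map _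
  have hdeg : pF.natDegree = p.natDegree := hpm.natDegree_map _
  set qF : F[X] := scaleRoots pF (x ^ N) with hqF
  have hqFm : qF.Monic := (monic_scaleRoots_iff _).mpr hpFm
  have hroot : eval (x ^ N * y) qF = 0 := by
    rw [hqF, scaleRoots_eval_mul]
    have : eval y pF = 0 := by
      rw [hpF, eval_map]
      exact hp
    rw [this, mul_zero]
  have hlift : qF ∈ lifts (algebraMap (Algebra.adjoin K {x}) F) := by
    rw [lifts_iff_coeff_lifts]
    intro i
    have hmem : qF.coeff i ∈ Algebra.adjoin K {x} := by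
      rw [hqF, coeff_scaleRoots, hpF, coeff_map, hdeg]
      rcases lt_or_ge i p.natDegree with hi | hi
      · rw [mul_comm, ← pow_mul]
        apply hm i
        calc m i ≤ N := hmN i hi.le
          _ = N * 1 := (mul_one N).symm
          _ ≤ N * (p.natDegree - i) := Nat.mul_le_mul_left N (Nat.sub_pos_of_lt hi)
      · rw [Nat.sub_eq_zero_of_le hi, pow_zero, mul_one]
        rcases eq_or_lt_of_le hi with hi' | hi'
        · rw [← hi', coeff_natDegree, hpm.leadingCoeff]
          exact one_mem _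
        · rw [coeff_eq_zero_of_natDegree_lt hi']
          exact zero_mem _
    exact ⟨⟨_, hmem⟩, rfl⟩
  obtain ⟨q, hq, -, hqm⟩ := lifts_and_natDegree_eq_and_monic hlift hqFm
  refine ⟨q, hqm, ?_⟩
  rw [← eval_map, hq]
  exact hroot

/-- `K`-points of a localization `C = B[1/b]` with prescribed nonzero value at `b` are the
`K`-points of `B` with that value at `b`. -/
theorem bijective_restrict_away {B C : Type*} [CommRing B] [CommRing C] [Algebra K B]
    [Algebra K C] [Algebra B C] [IsScalarTower K B C] (b : B) [IsLocalization.Away b C]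
    (c : K) (hc : c ≠ 0) :
    Function.Bijective
      (fun ψ : {ψ : C →ₐ[K] K // ψ (algebraMap B C b) = c} =>
        (⟨ψ.1.comp (IsScalarTower.toAlgHom K B C), ψ.2⟩ : {χ : B →ₐ[K] K // χ b = c})) := by
  constructor
  · rintro ⟨ψ, hψ⟩ ⟨ψ', hψ'⟩ h
    apply Subtype.ext
    have h1 : ψ.comp (IsScalarTower.toAlgHom K B C) = ψ'.comp (IsScalarTower.toAlgHom K B C) :=
      congrArg Subtype.val h
    have h2 : (ψ : C →+* K) = (ψ' : C →+* K) := by
      apply IsLocalization.ringHom_ext (Submonoid.powers b)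
      ext a
      exact DFunLike.congr_fun h1 a
    exact AlgHom.coe_ringHom_injective h2
  · rintro ⟨χ, hχ⟩
    have hu : IsUnit (χ b) := by
      rw [hχ]
      exact hc.isUnit
    refine ⟨⟨IsLocalization.Away.liftAlgHom (A := K) (S := C) b (f := χ) hu, ?_⟩, ?_⟩
    · rw [IsLocalization.Away.liftAlgHom_apply, IsLocalization.Away.lift_eq]
      exact hχ
    · apply Subtype.ext
      apply AlgHom.ext
      intro a
      show IsLocalization.Away.liftAlgHom (A := K) (S := C) b (f := χ) hu (algebraMap B C a) = χ a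
      rw [IsLocalization.Away.liftAlgHom_apply, IsLocalization.Away.lift_eq]
      rfl

section Sub

variable {B C : Subalgebra K F}

/-- the algebra structure of an inclusion of subalgebras -/
@[reducible] def inclAlgebra (hBC : B ≤ C) : Algebra B C :=
  (Subalgebra.inclusion hBC).toRingHom.toAlgebra

theorem isScalarTower_incl (hBC : B ≤ C) :
    letI := inclAlgebra hBC
    IsScalarTower K B C := by
  letI := inclAlgebra hBC
  exact IsScalarTower.of_algebraMap_eq fun r => rfl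

theorem isLocalization_away_incl (hBC : B ≤ C) {x : F} (hxB : x ∈ B) (hxC : x⁻¹ ∈ C)
    (hx : x ≠ 0) (hC : ∀ y ∈ C, ∃ m : ℕ, x ^ m * y ∈ B) :
    letI := inclAlgebra hBC
    IsLocalization.Away (⟨x, hxB⟩ : B) C := by
  letI := inclAlgebra hBC
  refine (isLocalization_iff _ _).mpr ⟨?_, ?_, ?_⟩
  · rintro ⟨_, n, rfl⟩
    have h1 : (algebraMap B C) ((⟨x, hxB⟩ : B) ^ n) * (⟨x⁻¹, hxC⟩ : C) ^ n = 1 := by
      apply Subtype.ext
      show x ^ n * x⁻¹ ^ n = 1
      rw [← mul_pow, mul_inv_cancel₀ hx, one_pow]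
    exact IsUnit.of_mul_eq_one _ h1
  · intro z
    obtain ⟨m, hm⟩ := hC z z.2
    refine ⟨(⟨_, hm⟩, ⟨(⟨x, hxB⟩ : B) ^ m, m, rfl⟩), ?_⟩
    apply Subtype.ext
    show (z : F) * x ^ m = x ^ m * z
    exact mul_comm _ _
  · intro a b hab
    refine ⟨1, ?_⟩
    have h1 : (a : F) = b := congrArg (fun z : C => (z : F)) hab
    have h2 : a = b := Subtype.ext h1
    rw [h2]

/-- restriction from `C = B[1/x]` to `B` is a bijection on `K`-points with nonzero value at
`x`. -/
theorem card_restrict (hBC : B ≤ C) {x : F} (hxB : x ∈ B) (hxC : x⁻¹ ∈ C)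
    (hx : x ≠ 0) (hC : ∀ y ∈ C, ∃ m : ℕ, x ^ m * y ∈ B) (c : K) (hc : c ≠ 0) :
    Nat.card {ψ : C →ₐ[K] K // ψ ⟨x, hBC hxB⟩ = c} =
      Nat.card {χ : B →ₐ[K] K // χ ⟨x, hxB⟩ = c} := by
  letI := inclAlgebra hBC
  haveI := isScalarTower_incl (K := K) hBC
  haveI := isLocalization_away_incl hBC hxB hxC hx hC
  exact Nat.card_eq_of_bijective _
    (bijective_restrict_away (K := K) (B := B) (C := C) (⟨x, hxB⟩ : B) c hc)

/-- `B[1/x]` as a subalgebra, for `x ∈ B`. -/
def awaySub (B : Subalgebra K F) (x : F) (hxB : x ∈ B) : Subalgebra K F where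
  carrier := {y | ∃ m : ℕ, x ^ m * y ∈ B}
  mul_mem' := by
    rintro y y' ⟨m, hm⟩ ⟨m', hm'⟩
    refine ⟨m + m', ?_⟩
    have : x ^ (m + m') * (y * y') = (x ^ m * y) * (x ^ m' * y') := by ring
    rw [this]
    exact mul_mem hm hm'
  add_mem' := by
    rintro y y' ⟨m, hm⟩ ⟨m', hm'⟩
    refine ⟨m + m', ?_⟩
    have : x ^ (m + m') * (y + y') = x ^ m' * (x ^ m * y) + x ^ m * (x ^ m' * y') := by ring
    rw [this]
    exact add_mem (mul_mem (pow_mem hxB _) hm) (mul_mem (pow_mem hxB _) hm')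
  algebraMap_mem' := by
    intro r
    refine ⟨0, ?_⟩
    rw [pow_zero, one_mul]
    exact B.algebraMap_mem r

theorem mem_awaySub {x : F} {hxB : x ∈ B} {y : F} :
    y ∈ awaySub B x hxB ↔ ∃ m : ℕ, x ^ m * y ∈ B := Iff.rfl

theorem le_awaySub {x : F} (hxB : x ∈ B) : B ≤ awaySub B x hxB := by
  intro y hy
  refine ⟨0, ?_⟩
  rw [pow_zero, one_mul]
  exact hy

end Sub

theorem sup_le_awaySub {x : F} (hx : x ≠ 0) :
    intCl K x ⊔ intCl K x⁻¹ ≤ awaySub (intCl K x) x (self_mem_intCl x) :=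
  sup_le (le_awaySub _) fun _ hy => exists_pow_mul_mem_intCl hx hy

theorem sup_le_awaySub_inv {x : F} (hx : x ≠ 0) :
    intCl K x ⊔ intCl K x⁻¹ ≤ awaySub (intCl K x⁻¹) x⁻¹ (self_mem_intCl x⁻¹) := by
  refine sup_le (fun y hy => ?_) (le_awaySub _)
  have hy' : y ∈ intCl K (x⁻¹)⁻¹ := by rwa [inv_inv]
  exact exists_pow_mul_mem_intCl (inv_ne_zero hx) hy'

end InvAux

/-- **The chart at infinity**: for `c ≠ 0` the fibre of `x⁻¹` over `c⁻¹` is the fibre of `x`
over `c`. -/
theorem fibreCard_inv (x : F) (c : K) (hc : c ≠ 0) :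
    fibreCard K x⁻¹ c⁻¹ = fibreCard K x c := by
  have key : ∀ (t : F) (a : K), fibreCard K t a =
      Nat.card {χ : intCl K t →ₐ[K] K // χ ⟨t, InvAux.self_mem_intCl t⟩ = a} := by
    intro t a
    unfold fibreCard
    exact Nat.card_congr (Equiv.subtypeEquivRight fun χ => ⟨fun h => h _, fun h _ => h⟩)
  rcases eq_or_ne x 0 with hx | hx
  · subst hx
    rw [inv_zero, key, key]
    have h0 : ∀ a : K, a ≠ 0 →
        IsEmpty {χ : intCl K (0 : F) →ₐ[K] K // χ ⟨0, InvAux.self_mem_intCl 0⟩ = a} := by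
      intro a ha
      refine ⟨fun χ => ha ?_⟩
      rw [← χ.2]
      exact map_zero χ.1
    haveI := h0 c hc
    haveI := h0 c⁻¹ (inv_ne_zero hc)
    rw [Nat.card_of_isEmpty, Nat.card_of_isEmpty]
  rw [key, key]
  set B := intCl K x with hB
  set B' := intCl K x⁻¹ with hB'
  have hxB : x ∈ B := InvAux.self_mem_intCl x
  have hxB' : x⁻¹ ∈ B' := InvAux.self_mem_intCl x⁻¹
  have h1 := InvAux.card_restrict (K := K) (B := B) (C := B ⊔ B') le_sup_left hxB
    (le_sup_right (a := B) hxB') hx (fun y hy => InvAux.sup_le_awaySub hx hy) c hc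
  have hxB'' : (x⁻¹)⁻¹ ∈ B ⊔ B' := by
    rw [inv_inv]
    exact le_sup_left (b := B') hxB
  have h2 := InvAux.card_restrict (K := K) (B := B') (C := B ⊔ B') le_sup_right hxB'
    hxB'' (inv_ne_zero hx) (fun y hy => InvAux.sup_le_awaySub_inv hx hy) c⁻¹ (inv_ne_zero hc)
  rw [← h1, ← h2]
  refine Nat.card_congr (Equiv.subtypeEquivRight fun ψ => ?_)
  have hmul : ψ ⟨x⁻¹, le_sup_right (a := B) hxB'⟩ * ψ ⟨x, le_sup_left (b := B') hxB⟩ = 1 := by
    rw [← map_mul]
    have : (⟨x⁻¹, le_sup_right (a := B) hxB'⟩ : (B ⊔ B' : Subalgebra K F)) *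
        ⟨x, le_sup_left (b := B') hxB⟩ = 1 := by
      apply Subtype.ext
      show x⁻¹ * x = 1
      exact inv_mul_cancel₀ hx
    rw [this, map_one]
  constructor
  · intro h
    rw [h] at hmul
    rw [eq_inv_of_mul_eq_one_right hmul, inv_inv]
  · intro h
    rw [h] at hmul
    exact eq_inv_of_mul_eq_one_left hmul

/-! ### the reduction datum in the chart at infinity -/

namespace InvAux

theorem adjoin_inv_eq' (K : Type*) {F : Type*} [Field K] [Field F] [Algebra K F] (x : F) :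
    K⟮x⁻¹⟯ = K⟮x⟯ := by
  apply le_antisymm
  · rw [adjoin_simple_le_iff]
    exact inv_mem (mem_adjoin_simple_self K x)
  · rw [adjoin_simple_le_iff]
    have h : (x⁻¹)⁻¹ ∈ K⟮x⁻¹⟯ := inv_mem (mem_adjoin_simple_self K x⁻¹)
    rwa [inv_inv] at h

theorem transcendental_inv' {K F : Type*} [Field K] [Field F] [Algebra K F] {x : F}
    (hx : Transcendental K x) : Transcendental K x⁻¹ := by
  intro h
  exact hx (by simpa using h.inv)

theorem finrank_congr_of_eq {K F : Type*} [Field K] [Field F] [Algebra K F]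
    {E₁ E₂ : IntermediateField K F} (h : E₁ = E₂) :
    Module.finrank E₁ F = Module.finrank E₂ F := by
  subst h
  rfl

theorem isSeparable_congr_of_eq {K F : Type*} [Field K] [Field F] [Algebra K F]
    {E₁ E₂ : IntermediateField K F} (h : E₁ = E₂) (hs : Algebra.IsSeparable E₂ F) :
    Algebra.IsSeparable E₁ F := by
  subst h
  exact hs

end InvAux

namespace InvAux

variable (M : RedModel K k F Fk)

theorem xbar_ne_zero : M.xbar ≠ 0 := by
  intro h
  apply M.x_trans
  have h' : M.rho ⟨M.x, M.x_mem⟩ = 0 := h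
  rw [h']
  exact isAlgebraic_zero

theorem x_ne_zero : M.x ≠ 0 := by
  intro h
  apply xbar_ne_zero M
  have h0 : (⟨M.x, M.x_mem⟩ : M.O) = 0 := Subtype.ext h
  show M.rho ⟨M.x, M.x_mem⟩ = 0
  rw [h0, map_zero]

theorem isUnit_x : IsUnit (⟨M.x, M.x_mem⟩ : M.O) := by
  by_contra h
  exact xbar_ne_zero M ((M.rho_eq_zero _).mpr h)

theorem inv_x_mem : M.x⁻¹ ∈ M.O := by
  obtain ⟨u, hu⟩ := isUnit_x M
  have h1 : ((u : M.O) : F) * ((u⁻¹ : (M.O)ˣ) : M.O) = 1 := by
    have : (u : M.O) * ((u⁻¹ : (M.O)ˣ) : M.O) = 1 := u.mul_inv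
    exact congrArg (fun z : M.O => (z : F)) this
  rw [hu] at h1
  have h2 : M.x⁻¹ = (((u⁻¹ : (M.O)ˣ) : M.O) : F) := by
    have h3 : M.x * (((u⁻¹ : (M.O)ˣ) : M.O) : F) = 1 := h1
    exact (eq_inv_of_mul_eq_one_right h3).symm
  rw [h2]
  exact SetLike.coe_mem _

theorem rho_inv_x : M.rho ⟨M.x⁻¹, inv_x_mem M⟩ = M.xbar⁻¹ := by
  have h1 : (⟨M.x, M.x_mem⟩ : M.O) * ⟨M.x⁻¹, inv_x_mem M⟩ = 1 := by
    apply Subtype.ext
    show M.x * M.x⁻¹ = 1
    exact mul_inv_cancel₀ (x_ne_zero M)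
  have h2 : M.xbar * M.rho ⟨M.x⁻¹, inv_x_mem M⟩ = 1 := by
    show M.rho ⟨M.x, M.x_mem⟩ * M.rho ⟨M.x⁻¹, inv_x_mem M⟩ = 1
    rw [← map_mul, h1, map_one]
  exact eq_inv_of_mul_eq_one_right h2

end InvAux

namespace RedModel

variable (M : RedModel K k F Fk)

/-- **The chart at infinity**: same `A`, `O`, `ρ`; base parameter `x⁻¹`. -/
def inv : RedModel K k F Fk where
  A := M.A
  res := M.res
  res_surj := M.res_surj
  res_eq_zero := M.res_eq_zero
  O := M.O
  rho := M.rho
  rho_surj := M.rho_surj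
  rho_eq_zero := M.rho_eq_zero
  map_mem := M.map_mem
  rho_map := M.rho_map
  val := M.val
  x := M.x⁻¹
  x_mem := InvAux.inv_x_mem M
  x_trans := by
    rw [InvAux.rho_inv_x M]
    exact InvAux.transcendental_inv' M.x_trans

@[simp] theorem inv_A : M.inv.A = M.A := rfl
@[simp] theorem inv_res : M.inv.res = M.res := rfl
@[simp] theorem inv_O : M.inv.O = M.O := rfl
@[simp] theorem inv_rho : M.inv.rho = M.rho := rfl
@[simp] theorem inv_x : M.inv.x = M.x⁻¹ := rfl

theorem inv_xbar : M.inv.xbar = M.xbar⁻¹ := InvAux.rho_inv_x M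

theorem inv_inv_x : M.inv.inv.x = M.x := inv_inv _

end RedModel

/-- DEGREE passes to the chart at infinity: `K(x⁻¹) = K(x)`, `k(x̄⁻¹) = k(x̄)`. -/
theorem DegData.inv {M : RedModel K k F Fk} {n : ℕ} (h : DegData M n) : DegData M.inv n where
  deg := by
    rw [← h.deg]
    exact InvAux.finrank_congr_of_eq (InvAux.adjoin_inv_eq' K M.x)
  degk := by
    rw [← h.degk]
    have hE : k⟮M.inv.xbar⟯ = k⟮M.xbar⟯ := by
      rw [M.inv_xbar]
      exact InvAux.adjoin_inv_eq' k M.xbar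
    exact InvAux.finrank_congr_of_eq hE
  sepk := by
    have hE : k⟮M.inv.xbar⟯ = k⟮M.xbar⟯ := by
      rw [M.inv_xbar]
      exact InvAux.adjoin_inv_eq' k M.xbar
    exact InvAux.isSeparable_congr_of_eq hE h.sepk
  pos := h.pos

namespace InvAux

/-- the branch set in the chart at infinity: `{0} ∪ {c⁻¹ : c ∈ S}`. -/
def invSet (S : Finset K) : Finset K :=
  letI := Classical.decEq K
  (insert 0 S).image fun c => c⁻¹

theorem mem_invSet {S : Finset K} {c : K} : c ∈ invSet S ↔ c = 0 ∨ c⁻¹ ∈ S := by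
  letI := Classical.decEq K
  unfold invSet
  rw [Finset.mem_image]
  constructor
  · rintro ⟨a, ha, rfl⟩
    rcases Finset.mem_insert.mp ha with h | h
    · left
      rw [h, inv_zero]
    · right
      rwa [inv_inv]
  · rintro (h | h)
    · exact ⟨0, Finset.mem_insert_self _ _, by rw [h, inv_zero]⟩
    · exact ⟨c⁻¹, Finset.mem_insert_of_mem h, inv_inv c⟩

end InvAux

/-- BRANCH passes to the chart at infinity, with branch set `{0} ∪ {c⁻¹ : c ∈ S, c ≠ 0}`,
provided the nonzero branch values are units of `A`. -/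
def BranchData.inv {M : RedModel K k F Fk} {n : ℕ} (BD : BranchData M n)
    (hS : ∀ c ∈ BD.S, c ≠ 0 → c⁻¹ ∈ M.A) : BranchData M.inv n where
  S := InvAux.invSet BD.S
  S_mem := by
    intro c hc
    rcases InvAux.mem_invSet.mp hc with h | h
    · rw [h]
      exact zero_mem _
    · rcases eq_or_ne c 0 with h0 | h0
      · rw [h0]
        exact zero_mem _
      · have := hS c⁻¹ h (inv_ne_zero h0)
        rwa [inv_inv] at this
  S_inj := by
    -- a nonzero element of the new branch set is a unit of `A`, so has nonzero residue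
    have hunit : ∀ c ∈ InvAux.invSet BD.S, c ≠ 0 → ∀ hc : c ∈ M.A,
        ∃ hc' : c⁻¹ ∈ M.A, M.res ⟨c, hc⟩ * M.res ⟨c⁻¹, hc'⟩ = 1 := by
      intro c hc h0 hcA
      rcases InvAux.mem_invSet.mp hc with h | h
      · exact absurd h h0
      · refine ⟨BD.S_mem _ h, ?_⟩
        rw [← map_mul]
        have : (⟨c, hcA⟩ : M.A) * ⟨c⁻¹, BD.S_mem _ h⟩ = 1 := by
          apply Subtype.ext
          show c * c⁻¹ = 1
          exact mul_inv_cancel₀ h0
        rw [this, map_one]
    have hres0 : ∀ hz : (0 : K) ∈ M.A, M.res ⟨0, hz⟩ = 0 := by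
      intro hz
      have : (⟨0, hz⟩ : M.A) = 0 := rfl
      rw [this, map_zero]
    show ∀ c ∈ InvAux.invSet BD.S, ∀ c' ∈ InvAux.invSet BD.S, ∀ (hc : c ∈ M.A) (hc' : c' ∈ M.A),
      M.res ⟨c, hc⟩ = M.res ⟨c', hc'⟩ → c = c'
    intro c hc c' hc' hcA hcA' hres
    rcases eq_or_ne c 0 with h0 | h0 <;> rcases eq_or_ne c' 0 with h0' | h0'
    · rw [h0, h0']
    · exfalso
      subst h0
      obtain ⟨hi, hm⟩ := hunit c' hc' h0' hcA'
      rw [← hres, hres0, zero_mul] at hm
      exact zero_ne_one hm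
    · exfalso
      subst h0'
      obtain ⟨hi, hm⟩ := hunit c hc h0 hcA
      rw [hres, hres0, zero_mul] at hm
      exact zero_ne_one hm
    · obtain ⟨hi, hm⟩ := hunit c hc h0 hcA
      obtain ⟨hi', hm'⟩ := hunit c' hc' h0' hcA'
      have hinv : M.res ⟨c⁻¹, hi⟩ = M.res ⟨c'⁻¹, hi'⟩ := by
        rw [eq_inv_of_mul_eq_one_right hm, eq_inv_of_mul_eq_one_right hm', hres]
      have hcS : c⁻¹ ∈ BD.S := (InvAux.mem_invSet.mp hc).resolve_left h0
      have hcS' : c'⁻¹ ∈ BD.S := (InvAux.mem_invSet.mp hc').resolve_left h0'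
      have := BD.S_inj _ hcS _ hcS' hi hi' hinv
      exact inv_injective this
  unram := by
    intro c hc
    have h0 : c ≠ 0 := fun h => hc (InvAux.mem_invSet.mpr (Or.inl h))
    have hS' : c⁻¹ ∉ BD.S := fun h => hc (InvAux.mem_invSet.mpr (Or.inr h))
    have h1 := BD.unram c⁻¹ hS'
    have h2 := fibreCard_inv (K := K) M.x c⁻¹ (inv_ne_zero h0)
    rw [inv_inv] at h2
    show fibreCard K M.x⁻¹ c = n
    rw [h2, h1]

theorem BranchData.inv_S {M : RedModel K k F Fk} {n : ℕ} (BD : BranchData M n)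
    (hS : ∀ c ∈ BD.S, c ≠ 0 → c⁻¹ ∈ M.A) : (BD.inv hS).S = InvAux.invSet BD.S := rfl

theorem BranchData.zero_mem_inv_S {M : RedModel K k F Fk} {n : ℕ} (BD : BranchData M n)
    (hS : ∀ c ∈ BD.S, c ≠ 0 → c⁻¹ ∈ M.A) : (0 : K) ∈ (BD.inv hS).S :=
  InvAux.mem_invSet.mpr (Or.inl rfl)

/-- the fibre bound of the chart at infinity at `0`: the number of points of the reduced curve
over `x̄ = ∞` is at most the number of points over `x = ∞`. -/
theorem FibreBound.at_infty {M : RedModel K k F Fk} (h : FibreBound M.inv) :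
    fibreCard k M.xbar⁻¹ 0 ≤ fibreCard K M.x⁻¹ 0 := by
  have h1 := h 0 (zero_mem _)
  have h2 : M.inv.res ⟨0, zero_mem _⟩ = 0 := by
    have : (⟨0, zero_mem _⟩ : M.inv.A) = 0 := rfl
    rw [this, map_zero]
  rw [h2, M.inv_xbar] at h1
  exact h1

/-- the fibre bound at a nonzero finite value, read in the chart at infinity. -/
theorem FibreBound.inv_at {M : RedModel K k F Fk} (h : FibreBound M.inv) (c : K) (hc : c ∈ M.A)
    (hc' : c⁻¹ ∈ M.A) (h0 : c ≠ 0) :
    fibreCard k M.xbar (M.res ⟨c, hc⟩) ≤ fibreCard K M.x c := by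
  have h1 := h c⁻¹ hc'
  have hm : M.res ⟨c, hc⟩ * M.res ⟨c⁻¹, hc'⟩ = 1 := by
    rw [← map_mul]
    have : (⟨c, hc⟩ : M.A) * ⟨c⁻¹, hc'⟩ = 1 := by
      apply Subtype.ext
      show c * c⁻¹ = 1
      exact mul_inv_cancel₀ h0
    rw [this, map_one]
  have hne : M.res ⟨c, hc⟩ ≠ 0 := left_ne_zero_of_mul_eq_one hm
  have h2 : M.inv.res ⟨c⁻¹, hc'⟩ = (M.res ⟨c, hc⟩)⁻¹ := eq_inv_of_mul_eq_one_right hm
  rw [h2, M.inv_xbar, M.inv_x, fibreCard_inv _ _ hne, fibreCard_inv _ _ h0] at h1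
  exact h1

end

end Fermat.Agent.S27GR
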