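import Fermat.Agent.S27.GR.Final
import Fermat.Agent.S27.GR.Genus
import Fermat.Agent.Lib.Deuring.FundIneq

set_option autoImplicit false
set_option linter.style.haveILetI false

/-!
# S27, block C (helper20): GENUS EQUALITY for an abstract reduction model, universe-polymorphic

`Fermat/Agent/S27/GR/*.lean` is the universe-polymorphic port (`Type*`) of the discriminant chain
`Lib/GoodRed` (cluster B, architect helper37; the original is stated in `Type`).

* `RedModel.toValSetup` : a reduction model is a constant reduction in the sense of `Lib/Deuring`;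
* `ValSetup_toRedModel` : conversely, with a base parameter;
* `genusFF_le_of_branchData` : `g(F) ≤ g(Fk)` from `DegData` + `BranchData` (discriminant chain in
  both charts + Riemann-Hurwitz);
* `genusFF_eq_of_branchData` : `g(F) = g(Fk)` if moreover the lattice property holds (Deuring).
-/

noncomputable section

open AlgebraicCurve IntermediateField

namespace Fermat.Agent.S27GR

open Fermat.Agent.RR Fermat.Agent.Deuring

variable {K k F Fk : Type*} [Field K] [Field k] [Field F] [Field Fk] [Algebra K F] [Algebra k Fk]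

/-- `O ∩ K = A` for a reduction model. -/
theorem RedModel.mem_O_iff (M : RedModel K k F Fk) (c : K) : algebraMap K F c ∈ M.O ↔ c ∈ M.A := by
  constructor
  · intro hcO
    by_contra hcA
    have hinv : c⁻¹ ∈ M.A := (M.A.mem_or_inv_mem c).resolve_left hcA
    have hc0 : c ≠ 0 := fun h0 => hcA (h0 ▸ M.A.zero_mem)
    have hnu : ¬ IsUnit (⟨c⁻¹, hinv⟩ : M.A) := by
      intro hu
      obtain ⟨u, hu⟩ := hu
      apply hcA
      have h2 : ((u⁻¹ : (M.A)ˣ) : M.A) * ⟨c⁻¹, hinv⟩ = 1 := by
        rw [← hu]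
        exact u.inv_mul
      have h3 : (((u⁻¹ : (M.A)ˣ) : M.A) : K) * c⁻¹ = 1 := congrArg Subtype.val h2
      have h4 : (((u⁻¹ : (M.A)ˣ) : M.A) : K) = c := by
        field_simp at h3
        exact h3
      rw [← h4]
      exact ((u⁻¹ : (M.A)ˣ) : M.A).2
    have hres : M.res ⟨c⁻¹, hinv⟩ = 0 := (M.res_eq_zero _).mpr hnu
    have h5 := M.rho_map ⟨c⁻¹, hinv⟩
    rw [hres, map_zero] at h5
    have h6 : (⟨algebraMap K F c, hcO⟩ : M.O) *
        ⟨algebraMap K F c⁻¹, M.map_mem ⟨c⁻¹, hinv⟩⟩ = 1 := by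
      apply Subtype.ext
      show algebraMap K F c * algebraMap K F c⁻¹ = 1
      rw [← map_mul, mul_inv_cancel₀ hc0, map_one]
    have h7 := congrArg M.rho h6
    rw [map_mul, h5, mul_zero, map_one] at h7
    exact zero_ne_one h7
  · intro hc
    exact M.map_mem ⟨c, hc⟩

/-- a reduction model is a constant reduction (`Lib/Deuring`). -/
def RedModel.toValSetup (M : RedModel K k F Fk) (hK : IsRRField K F) (hk : IsRRField k Fk) :
    ValSetup K F k Fk where
  A := M.A
  Ov := M.O
  res := M.res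
  ρ := M.rho
  hF := hK
  hFk := hk
  res_surj := M.res_surj
  ρ_surj := M.rho_surj
  mem_Ov_iff := M.mem_O_iff
  ρ_algebraMap := fun c hc _ => M.rho_map ⟨c, hc⟩
  ρ_eq_zero_iff := M.rho_eq_zero
  scale := by
    intro f hf
    obtain ⟨c, hc, h, hu⟩ := M.val f hf
    have hc' : algebraMap K F c ≠ 0 := (map_ne_zero (algebraMap K F)).mpr hc
    refine ⟨c⁻¹, inv_ne_zero hc, ?_, ?_⟩
    · rw [map_inv₀, inv_inv, mul_comm]
      exact h
    · rw [map_inv₀, inv_inv, mul_comm]
      obtain ⟨u, hu⟩ := hu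
      have h1 : (((u⁻¹ : (M.O)ˣ) : M.O) : F) = (algebraMap K F c * f)⁻¹ := by
        have h2 : ((u : M.O) : F) * (((u⁻¹ : (M.O)ˣ) : M.O) : F) = 1 :=
          congrArg Subtype.val u.mul_inv
        rw [hu] at h2
        exact eq_inv_of_mul_eq_one_right h2
      rw [← h1]
      exact ((u⁻¹ : (M.O)ˣ) : M.O).2

@[simp] theorem RedModel.toValSetup_A (M : RedModel K k F Fk) (hK : IsRRField K F)
    (hk : IsRRField k Fk) : (M.toValSetup hK hk).A = M.A := rfl

@[simp] theorem RedModel.toValSetup_Ov (M : RedModel K k F Fk) (hK : IsRRField K F)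
    (hk : IsRRField k Fk) : (M.toValSetup hK hk).Ov = M.O := rfl

/-- a constant reduction with a base parameter is a reduction model. -/
def ValSetup_toRedModel (S : ValSetup K F k Fk) (res_eq_zero : ∀ a : S.A, S.res a = 0 ↔ ¬ IsUnit a)
    (x : F) (hx : x ∈ S.Ov) (htr : Transcendental k (S.ρ ⟨x, hx⟩)) : RedModel K k F Fk where
  A := S.A
  res := S.res
  res_surj := S.res_surj
  res_eq_zero := res_eq_zero
  O := S.Ov
  rho := S.ρ
  rho_surj := S.ρ_surj
  rho_eq_zero := S.ρ_eq_zero_iff
  map_mem := fun a => (S.mem_Ov_iff _).mpr a.2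
  rho_map := fun a => S.ρ_algebraMap a.1 a.2 _
  val := by
    intro f hf
    obtain ⟨c, hc, h1, h2⟩ := S.scale f hf
    have hc' : algebraMap K F c ≠ 0 := (map_ne_zero (algebraMap K F)).mpr hc
    have e : algebraMap K F c⁻¹ * f = f * (algebraMap K F c)⁻¹ := by
      rw [map_inv₀, mul_comm]
    refine ⟨c⁻¹, inv_ne_zero hc, by rw [e]; exact h1, ?_⟩
    refine isUnit_iff_exists_inv.mpr ⟨⟨_, h2⟩, ?_⟩
    apply Subtype.ext
    show algebraMap K F c⁻¹ * f * (f * (algebraMap K F c)⁻¹)⁻¹ = 1
    rw [e]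
    exact mul_inv_cancel₀ (mul_ne_zero hf (inv_ne_zero hc'))
  x := x
  x_mem := hx
  x_trans := htr

/-- **GE, `≤`**: `g(F) ≤ g(Fk)` from the degree and branch data (discriminant chain in both
charts, Riemann-Hurwitz on both sides). -/
theorem genusFF_le_of_branchData [IsAlgClosed K] [CharZero K] [IsAlgClosed k]
    (M : RedModel K k F Fk) (n : ℕ) (hdeg : DegData M n) (BD : BranchData M n)
    (hS : ∀ c ∈ BD.S, c ≠ 0 → c⁻¹ ∈ M.A)
    (hK : IsRRField K F) (hk : IsRRField k Fk) :
    genusFF K F ≤ genusFF k Fk :=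
  genusFF_le_of_fibreBound M n hdeg BD hK hk
    (fibreBound_of_branchData M n hdeg BD.toA)
    (FibreBound.at_infty (fibreBound_inv M n hdeg BD hS))

/-- **GE**: `g(F) = g(Fk)` for a reduction model with degree data, branch data and the lattice
property. -/
theorem genusFF_eq_of_branchData [IsAlgClosed K] [CharZero K] [IsAlgClosed k]
    (M : RedModel K k F Fk) (n : ℕ) (hdeg : DegData M n) (BD : BranchData M n)
    (hS : ∀ c ∈ BD.S, c ≠ 0 → c⁻¹ ∈ M.A)
    (hK : IsRRField K F) (hk : IsRRField k Fk) (hL : HasLattice (M.toValSetup hK hk)) :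
    genusFF K F = genusFF k Fk := by
  haveI : Infinite k := IsAlgClosed.instInfinite
  exact le_antisymm (genusFF_le_of_branchData M n hdeg BD hS hK hk)
    (Fermat.Agent.Deuring.genusFF_le (M.toValSetup hK hk) hL)

end Fermat.Agent.S27GR
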