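import Fermat.Agent.S27.GR.GenusEq
import Fermat.Agent.S27.GR.LatticeAbs

set_option autoImplicit false
set_option linter.style.haveILetI false

/-!
# S27, block C5 (helper20): the LATTICE property of a reduction model with degree data

`RedModel.hasLattice (M : RedModel K k F Fk) n (hdeg : DegData M n) hK hk :
    Deuring.HasLattice (M.toValSetup hK hk)`

No further hypothesis (any valued field `(K, A)`, any residue characteristic, no separability, no
algebraic closedness).  Proof: lift a `k(x̄)`-basis of `Fk` to `w : Fin n → O`; it is a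
`K(x)`-basis of `F` (`linearIndependent_lift` + `deg = degk`).  A finite subset `t` of `F` has a
common denominator `D ∈ K[x]`, normalised to be a unit of `O` (Gauss lemma), with
`D t ⊆ ⊕ K[x] w_j`; the family `x^i w_j / D` is orthonormal and its `K`-span contains `t`;
conclude with `hasLattice_of_cover` (pivot elimination).

Corollary `genusFF_eq_of_degData_branchData` : genus equality without the lattice hypothesis.
-/

noncomputable section

namespace Fermat.Agent.S27GR

open Polynomial IntermediateField Fermat.Agent.RR Fermat.Agent.Deuring AlgebraicCurve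

variable {K k F Fk : Type*} [Field K] [Field k] [Field F] [Field Fk] [Algebra K F] [Algebra k Fk]

/-- the powers of a transcendental element are linearly independent. -/
theorem lat_linearIndependent_pow {R S : Type*} [Field R] [CommRing S] [Algebra R S] {y : S}
    (hy : Transcendental R y) : LinearIndependent R (fun i : ℕ => y ^ i) := by
  have h := (Polynomial.basisMonomials R).linearIndependent.map'
    (Polynomial.aeval y).toLinearMap
    (LinearMap.ker_eq_bot.mpr (transcendental_iff_injective.mp hy))
  have hfun : (fun i : ℕ => y ^ i) =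
      (Polynomial.aeval y).toLinearMap ∘ (Polynomial.basisMonomials R) := by
    funext i
    simp [Polynomial.coe_basisMonomials]
  rw [hfun]
  exact h

namespace RedModel

variable (M : RedModel K k F Fk)

/-- the `K`-span of the `x^i w_j` (= the `K[x]`-span of the `w_j`). -/
def latL {n : ℕ} (w : Fin n → F) : Submodule K F :=
  Submodule.span K (Set.range fun p : ℕ × Fin n => M.x ^ p.1 * w p.2)

theorem x_mul_mem_latL {n : ℕ} (w : Fin n → F) {f : F} (hf : f ∈ M.latL w) :
    M.x * f ∈ M.latL w := by
  unfold latL at hf ⊢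
  induction hf using Submodule.span_induction with
  | mem f hf =>
    obtain ⟨p, rfl⟩ := hf
    have h1 : M.x * (M.x ^ p.1 * w p.2) = M.x ^ (p.1 + 1) * w p.2 := by ring
    rw [h1]
    exact Submodule.subset_span ⟨(p.1 + 1, p.2), rfl⟩
  | zero => simp
  | add f g _ _ hf hg =>
    rw [mul_add]
    exact add_mem hf hg
  | smul c f _ hf =>
    rw [mul_smul_comm]
    exact Submodule.smul_mem _ _ hf

theorem aeval_mul_mem_latL {n : ℕ} (w : Fin n → F) (P : K[X]) {f : F} (hf : f ∈ M.latL w) :
    Polynomial.aeval M.x P * f ∈ M.latL w := by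
  induction P using Polynomial.induction_on' with
  | add p q hp hq =>
    rw [map_add, add_mul]
    exact add_mem hp hq
  | monomial i a =>
    rw [Polynomial.aeval_monomial, mul_assoc, ← Algebra.smul_def]
    refine Submodule.smul_mem _ _ ?_
    induction i with
    | zero => simpa using hf
    | succ i ih =>
      rw [pow_succ', mul_assoc]
      exact M.x_mul_mem_latL w ih

/-- the elements of `F` with a denominator in `K[x]` into `latL w`: a `K(x)`-subspace. -/
def latN {n : ℕ} (w : Fin n → F) : Submodule K⟮M.x⟯ F where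
  carrier := {f | ∃ D : K[X], D ≠ 0 ∧ Polynomial.aeval M.x D * f ∈ M.latL w}
  zero_mem' := ⟨1, one_ne_zero, by simp⟩
  add_mem' := by
    rintro f g ⟨D, hD, hf⟩ ⟨E, hE, hg⟩
    refine ⟨D * E, mul_ne_zero hD hE, ?_⟩
    have h1 : Polynomial.aeval M.x (D * E) * (f + g) =
        Polynomial.aeval M.x E * (Polynomial.aeval M.x D * f) +
          Polynomial.aeval M.x D * (Polynomial.aeval M.x E * g) := by
      rw [map_mul]
      ring
    rw [h1]
    exact add_mem (M.aeval_mul_mem_latL w E hf) (M.aeval_mul_mem_latL w D hg)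
  smul_mem' := by
    rintro g f ⟨D, hD, hf⟩
    obtain ⟨r, s, hrs⟩ := (IntermediateField.mem_adjoin_simple_iff K _).mp g.2
    by_cases hs : Polynomial.aeval M.x s = 0
    · refine ⟨1, one_ne_zero, ?_⟩
      have h0 : (g : F) = 0 := by rw [hrs, hs, div_zero]
      have h1 : g • f = 0 := by
        rw [IntermediateField.smul_def, h0]
        simp
      rw [h1, mul_zero]
      exact zero_mem _
    · have hs0 : s ≠ 0 := by
        rintro rfl
        simp at hs
      refine ⟨s * D, mul_ne_zero hs0 hD, ?_⟩
      have h1 : Polynomial.aeval M.x (s * D) * (g • f) =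
          Polynomial.aeval M.x r * (Polynomial.aeval M.x D * f) := by
        rw [IntermediateField.smul_def, smul_eq_mul, hrs, map_mul]
        field_simp
      rw [h1]
      exact M.aeval_mul_mem_latL w r hf

theorem mem_latN {n : ℕ} (w : Fin n → F) (f : F) :
    f ∈ M.latN w ↔ ∃ D : K[X], D ≠ 0 ∧ Polynomial.aeval M.x D * f ∈ M.latL w := Iff.rfl

/-- **C5, LATTICE**: a reduction model with `[F : K(x)] = [Fk : k(x̄)]` has the lattice property
(orthonormal bases of all finite-dimensional `K`-subspaces of `F`). -/
theorem hasLattice (n : ℕ) (hdeg : DegData M n) (hK : IsRRField K F) (hk : IsRRField k Fk) :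
    HasLattice (M.toValSetup hK hk) := by
  classical
  haveI : FiniteDimensional k⟮M.xbar⟯ Fk :=
    Module.finite_of_finrank_pos (by rw [hdeg.degk]; exact hdeg.pos)
  haveI : FiniteDimensional K⟮M.x⟯ F :=
    Module.finite_of_finrank_pos (by rw [hdeg.deg]; exact hdeg.pos)
  let bbar : Module.Basis (Fin n) k⟮M.xbar⟯ Fk := Module.finBasisOfFinrankEq _ _ hdeg.degk
  have hsurj : ∀ j, ∃ f : M.O, M.rho f = bbar j := fun j => M.rho_surj _
  choose wO hwO using hsurj
  have hindbar : LinearIndependent k⟮M.xbar⟯ (fun i => M.rho (wO i)) := by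
    have h1 : (fun i => M.rho (wO i)) = bbar := funext hwO
    rw [h1]
    exact bbar.linearIndependent
  have hindK := M.linearIndependent_lift wO hindbar
  have htop : Submodule.span K⟮M.x⟯ (Set.range fun i => ((wO i : M.O) : F)) = ⊤ :=
    hindK.span_eq_top_of_card_eq_finrank' (by rw [Fintype.card_fin, hdeg.deg])
  set w : Fin n → F := fun i => ((wO i : M.O) : F) with hw
  have hN : ∀ f : F, ∃ D : K[X], D ≠ 0 ∧ Polynomial.aeval M.x D * f ∈ M.latL w := by
    intro f
    have hle : Submodule.span K⟮M.x⟯ (Set.range w) ≤ M.latN w := by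
      rw [Submodule.span_le]
      rintro _ ⟨j, rfl⟩
      refine ⟨1, one_ne_zero, ?_⟩
      rw [map_one, one_mul]
      exact Submodule.subset_span ⟨(0, j), by simp⟩
    have hf : f ∈ M.latN w := hle (htop ▸ Submodule.mem_top)
    exact hf
  apply hasLattice_of_cover
  intro t
  -- a common denominator
  have hD : ∃ D : K[X], D ≠ 0 ∧ ∀ f ∈ t, Polynomial.aeval M.x D * f ∈ M.latL w := by
    induction t using Finset.induction_on with
    | empty => exact ⟨1, one_ne_zero, by simp⟩
    | insert a t _ ih =>
      obtain ⟨D, hD, hDt⟩ := ih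
      obtain ⟨E, hE, hEa⟩ := hN a
      refine ⟨D * E, mul_ne_zero hD hE, fun f hf => ?_⟩
      rcases Finset.mem_insert.mp hf with rfl | hf
      · have h1 : Polynomial.aeval M.x (D * E) * f =
            Polynomial.aeval M.x D * (Polynomial.aeval M.x E * f) := by
          rw [map_mul]
          ring
        rw [h1]
        exact M.aeval_mul_mem_latL w D hEa
      · have h1 : Polynomial.aeval M.x (D * E) * f =
            Polynomial.aeval M.x E * (Polynomial.aeval M.x D * f) := by
          rw [map_mul]
          ring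
        rw [h1]
        exact M.aeval_mul_mem_latL w E (hDt f hf)
  obtain ⟨D, hD0, hDt⟩ := hD
  obtain ⟨c, hc0, D₀, hDD₀, hred⟩ := M.exists_primitive D hD0
  have hunit := M.isUnit_evO hred
  obtain ⟨uu, huu⟩ := hunit
  set u : F := ((M.evO D₀ : M.O) : F) with hu_def
  have hueq : Polynomial.aeval M.x D = algebraMap K F c * u := by
    rw [hu_def, coe_evO]
    conv_lhs => rw [hDD₀]
    rw [map_mul, Polynomial.aeval_C]
  have huO : u ∈ M.O := (M.evO D₀).2
  have huinv_eq : (((uu⁻¹ : M.Oˣ) : M.O) : F) = u⁻¹ := by
    have h2 : ((uu : M.O) : F) * (((uu⁻¹ : M.Oˣ) : M.O) : F) = 1 :=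
      congrArg Subtype.val uu.mul_inv
    rw [huu] at h2
    exact eq_inv_of_mul_eq_one_right h2
  have huinv : u⁻¹ ∈ M.O := huinv_eq ▸ ((uu⁻¹ : M.Oˣ) : M.O).2
  have hu0 : u ≠ 0 := by
    intro h0
    have h2 : ((uu : M.O) : F) * (((uu⁻¹ : M.Oˣ) : M.O) : F) = 1 :=
      congrArg Subtype.val uu.mul_inv
    rw [huu] at h2
    rw [show ((M.evO D₀ : M.O) : F) = u from rfl, h0, zero_mul] at h2
    exact zero_ne_one h2
  have hut : ∀ f ∈ t, u * f ∈ M.latL w := by
    intro f hf
    have h1 := hDt f hf
    rw [hueq, mul_assoc, ← Algebra.smul_def] at h1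
    have h2 := Submodule.smul_mem (M.latL w) c⁻¹ h1
    rwa [smul_smul, inv_mul_cancel₀ hc0, one_smul] at h2
  set S := M.toValSetup hK hk with hS
  have hSO : ∀ f : F, f ∈ S.Ov ↔ f ∈ M.O := fun f => Iff.rfl
  refine ⟨ℕ × Fin n, fun p => M.x ^ p.1 * w p.2 * u⁻¹, ?_, ?_, ?_⟩
  · intro p
    exact mul_mem (mul_mem (pow_mem M.x_mem _) (wO p.2).2) huinv
  · -- linear independence of the reductions
    have hredx : S.red M.x = M.xbar := S.red_of_mem M.x_mem
    have hredw : ∀ j, S.red (w j) = M.rho (wO j) := fun j => S.red_of_mem (wO j).2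
    have hredu0 : S.red u ≠ 0 := S.red_ne_zero huO huinv hu0
    have hred : ∀ p : ℕ × Fin n, S.red (M.x ^ p.1 * w p.2 * u⁻¹) =
        M.xbar ^ p.1 * M.rho (wO p.2) * (S.red u)⁻¹ := by
      intro p
      have hxO : M.x ^ p.1 ∈ S.Ov := pow_mem M.x_mem _
      have hwO' : w p.2 ∈ S.Ov := (wO p.2).2
      rw [S.red_mul (mul_mem hxO hwO') huinv, S.red_mul hxO hwO', S.red_pow M.x_mem, hredx,
        hredw, S.red_inv huO huinv hu0]
    have hgen : Transcendental k (AdjoinSimple.gen k M.xbar) := by
      rw [← transcendental_algebraMap_iff (algebraMap k⟮M.xbar⟯ Fk).injective,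
        AdjoinSimple.algebraMap_gen]
      exact M.x_trans
    have hb := lat_linearIndependent_pow hgen
    have hprod := linearIndependent_smul hb hindbar
    have hmul : LinearMap.ker (LinearMap.mulRight k (S.red u)⁻¹) = ⊥ := by
      rw [LinearMap.ker_eq_bot]
      intro a b hab
      simp only [LinearMap.mulRight_apply] at hab
      exact mul_right_cancel₀ (inv_ne_zero hredu0) hab
    have hfinal := hprod.map' _ hmul
    have hfun : (fun p : ℕ × Fin n => S.red (M.x ^ p.1 * w p.2 * u⁻¹)) =
        (LinearMap.mulRight k (S.red u)⁻¹) ∘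
          (fun p : ℕ × Fin n => AdjoinSimple.gen k M.xbar ^ p.1 • M.rho (wO p.2)) := by
      funext p
      rw [hred p]
      simp only [Function.comp_apply, LinearMap.mulRight_apply, IntermediateField.smul_def,
        smul_eq_mul]
      rfl
    rw [hfun]
    exact hfinal
  · intro f hf
    have h1 := hut f hf
    have h2 : f = LinearMap.mulRight K u⁻¹ (u * f) := by
      rw [LinearMap.mulRight_apply]
      field_simp
    have h3 : Submodule.map (LinearMap.mulRight K u⁻¹) (M.latL w) =
        Submodule.span K (Set.range fun p : ℕ × Fin n => M.x ^ p.1 * w p.2 * u⁻¹) := by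
      unfold latL
      rw [Submodule.map_span, ← Set.range_comp]
      rfl
    rw [h2, ← h3]
    exact Submodule.mem_map_of_mem h1

end RedModel

/-- **GE without the lattice hypothesis**: `g(F) = g(Fk)` for a reduction model with degree data
and branch data. -/
theorem genusFF_eq_of_degData_branchData [IsAlgClosed K] [CharZero K] [IsAlgClosed k]
    (M : RedModel K k F Fk) (n : ℕ) (hdeg : DegData M n) (BD : BranchData M n)
    (hS : ∀ c ∈ BD.S, c ≠ 0 → c⁻¹ ∈ M.A)
    (hK : IsRRField K F) (hk : IsRRField k Fk) :
    genusFF K F = genusFF k Fk :=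
  genusFF_eq_of_branchData M n hdeg BD hS hK hk (M.hasLattice n hdeg hK hk)

end Fermat.Agent.S27GR
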