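import Fermat.Agent.S27.GR.Chain
import Fermat.Agent.S27.GR.DefsA

/-!
# Cluster B / GoodRed WP C for WEAK branch data, with EQUALITY of fibre cardinalities (helper37)

`discChainA_of_steps`: DEGREE + weak BRANCH + (L) `LiftStepA` + (P) `PointsStep` imply
(NORM) `NormalReduction M`, (FIB) `FibreBound M` and (FIB=) `FibreEq M n BD`.
-/

set_option autoImplicit false

namespace Fermat.Agent.S27GR

open Polynomial IntermediateField
open scoped IntermediateField.algebraAdjoinAdjoin

noncomputable section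

variable {K k F Fk : Type*} [Field K] [Field k] [Field F] [Field Fk] [Algebra K F] [Algebra k Fk]

/-- local step of the chain (weak branch data): at `c̄ = res c`, if `c ∈ S` or no branch value
reduces to `c̄`, then `m + #pts(B̄, c̄) = n` for `m = ord_{c̄} d̄`, `#pts(B̄, c̄) = #fibre(c)`,
and `B̄` is integrally closed at `c̄`. -/
theorem chainA_local_at [IsAlgClosed k] (M : RedModel K k F Fk) (n : ℕ)
    (hdeg : DegData M n) (BD : BranchDataA M n)
    (hL : LiftStepA M n BD) (hP : PointsStep M) (c : K) (hc : c ∈ M.A)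
    (hcS : c ∈ BD.S ∨ ∀ c' ∈ BD.S, ∀ hc' : c' ∈ M.A, M.res ⟨c', hc'⟩ ≠ M.res ⟨c, hc⟩) :
    numPtsBbar M (M.res ⟨c, hc⟩) = fibreCard K M.x c ∧
    ∀ y : Fk, IsIntegral (Algebra.adjoin k {M.xbar}) y →
      ∃ s : Algebra.adjoin k {M.xbar}, evalAt M.x_trans (M.res ⟨c, hc⟩) s ≠ 0 ∧ s • y ∈ M.BbarR := by
  classical
  obtain ⟨bbar, hbasis, dbar, hd, hd0, hbound⟩ := hL
  have hxk : Transcendental k M.xbar := M.x_trans
  have : IsPrincipalIdealRing (Algebra.adjoin k {M.xbar}) := lb_isPrincipalIdealRing_adjoin hxk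
  have : FiniteDimensional k⟮M.xbar⟯ Fk :=
    Module.finite_of_finrank_pos (by rw [hdeg.degk]; exact hdeg.pos)
  have := hdeg.sepk
  have hmem : ∀ i, bbar i ∈ M.BbarR := hbasis.mem
  have hspan : ∀ y ∈ M.BbarR, ∃ c : Fin n → Algebra.adjoin k {M.xbar}, y = ∑ i, c i • bbar i :=
    hbasis.span
  have hint := chain_isIntegral_of_span M.BbarR bbar hmem hspan
  set cbar := M.res ⟨c, hc⟩ with hcbar
  have hprime : Prime (piAt k M.xbar cbar) := prime_piAt hxk cbar
  have hfin : FiniteMultiplicity (piAt k M.xbar cbar) dbar :=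
    FiniteMultiplicity.of_prime_left hprime hd0
  set m := multiplicity (piAt k M.xbar cbar) dbar with hm
  have hpow : piAt k M.xbar cbar ^ m ∣ dbar := pow_multiplicity_dvd _ _
  have hnpow : ¬ piAt k M.xbar cbar ^ (m + 1) ∣ dbar :=
    hfin.not_pow_dvd_of_multiplicity_lt (Nat.lt_succ_self _)
  obtain ⟨h1, h2⟩ := discLowerBound (Algebra.adjoin k {M.xbar}) k⟮M.xbar⟯ Fk n M.BbarR bbar hmem
    hint hbasis.indep hdeg.degk hspan k (evalAt hxk cbar).toRingHom (evalAt_surjective hxk cbar)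
    (piAt k M.xbar cbar) (ker_evalAt hxk cbar) dbar m hd hpow hnpow
  have hnum : numPts (Algebra.adjoin k {M.xbar}) Fk M.BbarR (evalAt hxk cbar).toRingHom =
      numPtsBbar M cbar := numPts_overAdjoin hxk M.Bbar M.xbar_mem_Bbar cbar
  rw [hnum] at h1 h2
  have hb2 : numPtsBbar M cbar ≤ fibreCard K M.x c := hP c hc
  have hb1 : m + fibreCard K M.x c ≤ n := by
    rcases hcS with hcS | hcS
    · exact (hbound c hc m hpow).1 hcS
    · have hm0 : m = 0 := (hbound c hc m hpow).2 hcS
      have hnS : c ∉ BD.S := fun h => hcS c h hc rfl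
      rw [BD.unram c hc hnS]
      omega
  exact ⟨by omega, h2 (by omega)⟩

/-- local step of the chain (weak branch data): at every `c̄` the ring `B̄` is integrally
closed. -/
theorem chainA_local [IsAlgClosed k] (M : RedModel K k F Fk) (n : ℕ)
    (hdeg : DegData M n) (BD : BranchDataA M n)
    (hL : LiftStepA M n BD) (hP : PointsStep M) (cbar : k) (y : Fk)
    (hy : IsIntegral (Algebra.adjoin k {M.xbar}) y) :
    ∃ s : Algebra.adjoin k {M.xbar}, evalAt M.x_trans cbar s ≠ 0 ∧ s • y ∈ M.BbarR := by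
  classical
  by_cases hS : ∃ c ∈ BD.S, ∃ hc : c ∈ M.A, M.res ⟨c, hc⟩ = cbar
  · obtain ⟨c, hcS, hc, hres⟩ := hS
    subst hres
    exact (chainA_local_at M n hdeg BD hL hP c hc (Or.inl hcS)).2 y hy
  · obtain ⟨a, ha⟩ := M.res_surj cbar
    subst ha
    exact (chainA_local_at M n hdeg BD hL hP a.1 a.2
      (Or.inr fun c' hc'S hc' hres => hS ⟨c', hc'S, hc', hres⟩)).2 y hy

/-- (NORM) from the chain, in subalgebra form: `intCl k x̄ ≤ B̄`. -/
theorem chainA_intCl_le_Bbar [IsAlgClosed k] (M : RedModel K k F Fk) (n : ℕ)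
    (hdeg : DegData M n) (BD : BranchDataA M n)
    (hL : LiftStepA M n BD) (hP : PointsStep M) : intCl k M.xbar ≤ M.Bbar := by
  intro y hy
  have hy' : IsIntegral (Algebra.adjoin k {M.xbar}) y := hy
  have hxk : Transcendental k M.xbar := M.x_trans
  let I : Ideal (Algebra.adjoin k {M.xbar}) :=
    (Subalgebra.toSubmodule M.BbarR).colon {y}
  have hI : ∀ s : Algebra.adjoin k {M.xbar}, s ∈ I ↔ s • y ∈ M.BbarR := fun s =>
    Submodule.mem_colon_singleton
  have htop : I = ⊤ := by
    by_contra hne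
    obtain ⟨𝔪, h𝔪, hle⟩ := Ideal.exists_le_maximal I hne
    obtain ⟨cbar, rfl⟩ := exists_piAt_of_isMaximal hxk 𝔪 h𝔪
    obtain ⟨s, hs, hsy⟩ := chainA_local M n hdeg BD hL hP cbar y hy'
    have hsI : s ∈ I := (hI s).mpr hsy
    have := hle hsI
    rw [← ker_evalAt hxk cbar, RingHom.mem_ker] at this
    exact hs this
  have h1 : (1 : Algebra.adjoin k {M.xbar}) ∈ I := by rw [htop]; trivial
  have := (hI 1).mp h1
  rwa [one_smul] at this

theorem chainA_Bbar_eq_intCl [IsAlgClosed k] (M : RedModel K k F Fk) (n : ℕ)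
    (hdeg : DegData M n) (BD : BranchDataA M n)
    (hL : LiftStepA M n BD) (hP : PointsStep M) : M.Bbar = intCl k M.xbar := by
  obtain ⟨bbar, hbasis, -⟩ := id hL
  exact le_antisymm (chain_Bbar_le_intCl M n bbar hbasis)
    (chainA_intCl_le_Bbar M n hdeg BD hL hP)

/-- `#pts(B̄, c̄)` is the fibre cardinality of the reduced curve, once `B̄` is normal. -/
theorem chainA_numPtsBbar_eq (M : RedModel K k F Fk) (heq : M.Bbar = intCl k M.xbar) (cbar : k) :
    numPtsBbar M cbar = fibreCard k M.xbar cbar := by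
  unfold numPtsBbar fibreCard
  exact chain_card_eq heq M.xbar M.xbar_mem_Bbar cbar

/-- **The discriminant chain for weak branch data** (finite part): (L) + (P) (+ ALG-1) imply
(NORM), (FIB) and (FIB=). -/
theorem discChainA_of_steps [IsAlgClosed k] (M : RedModel K k F Fk) (n : ℕ)
    (hdeg : DegData M n) (BD : BranchDataA M n)
    (hL : LiftStepA M n BD) (hP : PointsStep M) :
    NormalReduction M ∧ FibreBound M ∧ FibreEq M n BD := by
  have heq := chainA_Bbar_eq_intCl M n hdeg BD hL hP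
  refine ⟨fun y hy => ?_, fun c hc => ?_, fun c hc hcS => ?_⟩
  · have : y ∈ M.Bbar := heq ▸ hy
    exact this
  · rw [← chainA_numPtsBbar_eq M heq]
    exact hP c hc
  · rw [← chainA_numPtsBbar_eq M heq]
    exact (chainA_local_at M n hdeg BD hL hP c hc hcS).1

end

end Fermat.Agent.S27GR
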