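import Fermat.Agent.S27.GR.LiftFinal
import Fermat.Agent.S27.GR.DefsA

/-!
# Cluster B / GoodRed, step (L) for WEAK branch data (helper37; proof = helper21's `liftStep_of`
verbatim, which only uses `unram` at points of `A`).
-/

set_option autoImplicit false

namespace Fermat.Agent.S27GR

open Polynomial IntermediateField
open scoped IntermediateField.algebraAdjoinAdjoin

noncomputable section

universe uK uk uF uFk

variable {K : Type uK} {k : Type uk} {F : Type uF} {Fk : Type uFk}
  [Field K] [Field k] [Field F] [Field Fk] [Algebra K F] [Algebra k Fk]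

/-- **(L4)** the LIFT STEP from a lifted basis (L1), the index statement (L2), the roots lemma
(L3) and the tame discriminant bound (ALG-2). -/
theorem liftStepA_of [IsAlgClosed K] [CharZero K] (M : RedModel K k F Fk) (n : ℕ)
    (hdeg : DegData M n) (BD : BranchDataA M n)
    (hA2 : DiscUpperTame.{_, _, _, uK} (Algebra.adjoin K {M.x}) K⟮M.x⟯ F)
    (LB : LiftedBasis M n) (hL2 : IndexNoRoot M n LB) : LiftStepA M n BD := by
  classical
  have hx : Transcendental K M.x := M.l4_x_transcendental
  have hxb : Transcendental k M.xbar := M.x_trans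
  obtain ⟨β, I, dK, hβint, hβLI, hβspan, hdK, hD, hI⟩ := hL2
  -- (ALG-2) in polynomial language
  have key : ∀ (c : K) (m : ℕ), (X - C c) ^ m ∣ dK → m + fibreCard K M.x c ≤ n :=
    fun c m hm => add_fibreCard_le_of_pow_dvd M.x hx n hdeg.deg hdeg.pos hA2 β dK hβint hβLI
      hβspan hdK c m hm
  -- nonvanishing
  have hD0 : LB.D ≠ 0 := by
    intro h0
    apply LB.D_bar_ne
    rw [h0, Polynomial.map_zero]
  have hDK0 : LB.D.map M.A.subtype ≠ 0 := by
    intro h0
    apply hD0
    apply map_subtype_injective
    rw [h0, Polynomial.map_zero]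
  have hI2dK : I ^ 2 * dK ≠ 0 := by rw [← hD]; exact hDK0
  have hI0 : I ^ 2 ≠ 0 := left_ne_zero_of_mul hI2dK
  -- multiplicities of roots in `A`
  have hmult : ∀ r : M.A, LB.D.rootMultiplicity r = dK.rootMultiplicity (r : K) := by
    intro r
    rw [Polynomial.eq_rootMultiplicity_map (f := M.A.subtype) Subtype.val_injective r, hD,
      Polynomial.rootMultiplicity_mul hI2dK]
    have h1 : (I ^ 2).rootMultiplicity (r : K) = 0 := by
      rw [Polynomial.rootMultiplicity_eq_zero_iff]
      intro hroot
      exfalso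
      rw [Polynomial.IsRoot.def, Polynomial.eval_pow] at hroot
      exact hI (r : K) r.2 (pow_eq_zero_iff (two_ne_zero) |>.mp hroot)
    have h2 : M.A.subtype r = (r : K) := rfl
    rw [h2, h1, zero_add]
  -- roots in `A` are branch values
  have hrootS : ∀ r : M.A, LB.D.IsRoot r → (r : K) ∈ BD.S := by
    intro r hr
    by_contra hS
    have h1 : 0 < LB.D.rootMultiplicity r := (Polynomial.rootMultiplicity_pos hD0).mpr hr
    rw [hmult r] at h1
    have h2 := key (r : K) _ (Polynomial.pow_rootMultiplicity_dvd dK (r : K))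
    rw [BD.unram (r : K) r.2 hS] at h2
    omega
  refine ⟨fun i => M.rho ⟨LB.b i, LB.mem_O i⟩, LB.basis,
    l4_polyEquiv k M.xbar hxb (LB.D.map M.res), ?_, ?_, ?_⟩
  · rw [l4_algebraMap_polyEquiv, ← LB.D_gram_bar]
    rfl
  · intro h0
    apply LB.D_bar_ne
    apply (l4_polyEquiv k M.xbar hxb).injective
    rw [h0, map_zero]
  · intro c hc m hm
    rw [l4_piAt_pow_dvd_iff] at hm
    have hm1 : m ≤ (LB.D.map M.res).rootMultiplicity (M.res ⟨c, hc⟩) :=
      (Polynomial.le_rootMultiplicity_iff LB.D_bar_ne).mpr hm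
    rw [rootMultiplicity_map_res M.res_eq_zero LB.D LB.D_bar_ne] at hm1
    have hfil : ∀ r ∈ LB.D.roots.filter (fun r => M.res r = M.res ⟨c, hc⟩),
        (r : K) ∈ BD.S ∧ M.res r = M.res ⟨c, hc⟩ := by
      intro r hr
      rw [Multiset.mem_filter] at hr
      exact ⟨hrootS r ((Polynomial.mem_roots hD0).mp hr.1), hr.2⟩
    constructor
    · intro hcS
      have hall : ∀ r ∈ LB.D.roots.filter (fun r => M.res r = M.res ⟨c, hc⟩),
          r = (⟨c, hc⟩ : M.A) := by
        intro r hr
        obtain ⟨h1, h2⟩ := hfil r hr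
        exact Subtype.ext (BD.S_inj (r : K) h1 c hcS r.2 hc h2)
      have hrep := Multiset.eq_replicate_card.mpr hall
      have hcount : Multiset.card (LB.D.roots.filter (fun r => M.res r = M.res ⟨c, hc⟩)) ≤
          LB.D.rootMultiplicity (⟨c, hc⟩ : M.A) := by
        rw [← Polynomial.count_roots]
        calc Multiset.card (LB.D.roots.filter (fun r => M.res r = M.res ⟨c, hc⟩))
            = Multiset.count (⟨c, hc⟩ : M.A)
                (LB.D.roots.filter (fun r => M.res r = M.res ⟨c, hc⟩)) := by
              conv_rhs => rw [hrep]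
              rw [Multiset.count_replicate_self]
          _ ≤ Multiset.count (⟨c, hc⟩ : M.A) LB.D.roots :=
              Multiset.count_le_of_le _ (Multiset.filter_le _ _)
      rw [hmult ⟨c, hc⟩] at hcount
      have h2 := key c _ (Polynomial.pow_rootMultiplicity_dvd dK c)
      have h3 : (((⟨c, hc⟩ : M.A)) : K) = c := rfl
      rw [h3] at hcount
      omega
    · intro hno
      have hempty : LB.D.roots.filter (fun r => M.res r = M.res ⟨c, hc⟩) = 0 := by
        apply Multiset.eq_zero_of_forall_notMem
        intro r hr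
        obtain ⟨h1, h2⟩ := hfil r hr
        exact hno (r : K) h1 r.2 h2
      rw [hempty, Multiset.card_zero] at hm1
      omega

/-- **(L)** the LIFT STEP for weak branch data: only (ALG-2) remains as a hypothesis. -/
theorem liftStepA_closed [IsAlgClosed K] [CharZero K] (M : RedModel K k F Fk) (n : ℕ)
    (hdeg : DegData M n) (BD : BranchDataA M n)
    (hA2 : DiscUpperTame.{_, _, _, uK} (Algebra.adjoin K {M.x}) K⟮M.x⟯ F) : LiftStepA M n BD := by
  obtain ⟨LB⟩ := M.liftBasisStep (charpolyRed M n hdeg) hdeg
  exact liftStepA_of M n hdeg BD hA2 LB (indexNoRoot M n hdeg LB)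

end

end Fermat.Agent.S27GR
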