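import Fermat.Agent.S27.GR.Steps

/-!
# Cluster B / GoodRed: bridging lemmas for (L4): evaluation at `x = c` on `K[x] = Algebra.adjoin K {x}` (helper21)

Bridging lemmas used by the assembly steps (L4), (C) of the discriminant chain:

* `RedModel.x_transcendental` : the base parameter `x` is transcendental over `K`;
* `l4_evalAt K x hx c : Algebra.adjoin K {x} →+* K`, the evaluation at `x = c`, with
  `l4_isEvalAt_evalAt`, `l4_evalAt_surjective`, `l4_ker_evalAt : ker = span {piAt K x c}`;
* `l4_polyEquiv`-transport of divisibility: `l4_piAt_pow_dvd_iff`;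
* `l4_numPts_integralClosure_eq_fibreCard` : the number of points of ALG-1/ALG-2 for the integral
  closure of `K[x]` and the evaluation at `c` is `fibreCard K x c`.
-/

set_option autoImplicit false

namespace Fermat.Agent.S27GR

open Polynomial IntermediateField
open scoped IntermediateField.algebraAdjoinAdjoin

noncomputable section

variable {K k F Fk : Type*} [Field K] [Field k] [Field F] [Field Fk] [Algebra K F] [Algebra k Fk]

/-! ### scaling a polynomial into `A[X]` with a coefficient `1` -/

/-- Every nonzero polynomial over `K` is a constant times a polynomial over the valuation ring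
`A` one of whose coefficients is `1`. -/
theorem l4_exists_scale_polynomial (A : ValuationSubring K) (P : K[X]) (hP : P ≠ 0) :
    ∃ (a : K) (Q : A[X]), a ≠ 0 ∧ P = C a * Q.map A.subtype ∧ ∃ j, Q.coeff j = 1 := by
  classical
  have hne : P.support.Nonempty := by
    rw [Finset.nonempty_iff_ne_empty, Ne, Polynomial.support_eq_empty]
    exact hP
  obtain ⟨j, hj, hmax⟩ := Finset.exists_max_image P.support
    (fun i => A.valuation (P.coeff i)) hne
  have ha : P.coeff j ≠ 0 := Polynomial.mem_support_iff.mp hj
  have hcoef : ∀ i, (C (P.coeff j)⁻¹ * P).coeff i ∈ Set.range A.subtype := by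
    intro i
    rw [Polynomial.coeff_C_mul]
    by_cases hi : i ∈ P.support
    · have h1 : A.valuation ((P.coeff j)⁻¹ * P.coeff i) ≤ 1 := by
        rw [map_mul, map_inv₀]
        have h2 := hmax i hi
        have h3 : A.valuation (P.coeff j) ≠ 0 := by
          rw [Ne, map_eq_zero]
          exact ha
        calc (A.valuation (P.coeff j))⁻¹ * A.valuation (P.coeff i)
            ≤ (A.valuation (P.coeff j))⁻¹ * A.valuation (P.coeff j) :=
              mul_le_mul_right h2 _
          _ = 1 := inv_mul_cancel₀ h3
      exact ⟨⟨_, (A.valuation_le_one_iff _).mp h1⟩, rfl⟩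
    · rw [Polynomial.notMem_support_iff.mp hi, mul_zero]
      exact ⟨0, rfl⟩
  obtain ⟨Q, hQ⟩ := (Polynomial.lifts_iff_coeff_lifts _).mpr hcoef
  refine ⟨P.coeff j, Q, ha, ?_, j, ?_⟩
  · have hQ' : Q.map A.subtype = C (P.coeff j)⁻¹ * P := hQ
    rw [hQ', ← mul_assoc, ← C_mul, mul_inv_cancel₀ ha, C_1, one_mul]
  · apply Subtype.val_injective
    have h1 := congrArg (fun p => p.coeff j) (show Q.map A.subtype = C (P.coeff j)⁻¹ * P from hQ)
    simp only [Polynomial.coeff_map, Polynomial.coeff_C_mul] at h1
    rw [inv_mul_cancel₀ ha] at h1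
    exact h1

/-! ### the evaluation `A[X] → O`, `X ↦ x`, and transcendence of `x` -/

namespace RedModel

variable (M : RedModel K k F Fk)

/-- the inclusion `A → O`. -/
def l4_inclAO : M.A →+* M.O where
  toFun a := ⟨algebraMap K F a, M.map_mem a⟩
  map_one' := Subtype.ext (by simp)
  map_mul' a b := Subtype.ext (by simp)
  map_zero' := Subtype.ext (by simp)
  map_add' a b := Subtype.ext (by simp)

@[simp] theorem l4_coe_inclAO (a : M.A) : ((M.l4_inclAO a : M.O) : F) = algebraMap K F a := rfl

theorem l4_rho_inclAO (a : M.A) : M.rho (M.l4_inclAO a) = algebraMap k Fk (M.res a) := M.rho_map a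

/-- the evaluation `A[X] → O`, `X ↦ x`. -/
def l4_evO : Polynomial M.A →+* M.O := Polynomial.eval₂RingHom M.l4_inclAO ⟨M.x, M.x_mem⟩

theorem l4_coe_evO (P : Polynomial M.A) :
    ((M.l4_evO P : M.O) : F) = Polynomial.aeval M.x (P.map M.A.subtype) := by
  have h : (M.O.subtype.comp M.l4_evO) =
      ((Polynomial.aeval M.x : K[X] →ₐ[K] F).toRingHom.comp
        (Polynomial.mapRingHom M.A.subtype)) := by
    apply Polynomial.ringHom_ext
    · intro a
      simp [l4_evO]
    · simp [l4_evO]
  exact congrArg (fun f => f P) h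

theorem l4_rho_evO (P : Polynomial M.A) :
    M.rho (M.l4_evO P) = Polynomial.aeval M.xbar (P.map M.res) := by
  have h : (M.rho.comp M.l4_evO) =
      ((Polynomial.aeval M.xbar : k[X] →ₐ[k] Fk).toRingHom.comp
        (Polynomial.mapRingHom M.res)) := by
    apply Polynomial.ringHom_ext
    · intro a
      simp [l4_evO, l4_rho_inclAO]
    · simp [l4_evO, xbar]
  exact congrArg (fun f => f P) h

/-- The base parameter `x` is transcendental over `K`. -/
theorem l4_x_transcendental : Transcendental K M.x := by
  intro halg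
  obtain ⟨P, hP0, hP⟩ := halg
  obtain ⟨a, Q, ha, hPQ, j, hj⟩ := l4_exists_scale_polynomial M.A P hP0
  have h1 : Polynomial.aeval M.x (Q.map M.A.subtype) = 0 := by
    rw [hPQ, map_mul, Polynomial.aeval_C] at hP
    rcases mul_eq_zero.mp hP with h | h
    · exact absurd ((map_eq_zero_iff _ (algebraMap K F).injective).mp h) ha
    · exact h
  have h2 : M.l4_evO Q = 0 := Subtype.ext (by rw [l4_coe_evO, h1]; rfl)
  have h3 : Polynomial.aeval M.xbar (Q.map M.res) = 0 := by
    rw [← l4_rho_evO, h2, map_zero]
  have h4 : Q.map M.res = 0 := by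
    by_contra hne
    exact M.x_trans ⟨_, hne, h3⟩
  have h5 := congrArg (fun p => p.coeff j) h4
  simp only [Polynomial.coeff_map, hj, map_one, Polynomial.coeff_zero] at h5
  exact one_ne_zero h5

theorem l4_xbar_transcendental : Transcendental k M.xbar := M.x_trans

end RedModel

/-! ### evaluation at `x = c` on `K[x]` -/

section EvalAt

variable (K) in
/-- the isomorphism `K[X] ≃ K[x]` for a transcendental `x`. -/
def l4_polyEquiv (x : F) (hx : Transcendental K x) : K[X] ≃ₐ[K] Algebra.adjoin K {x} :=
  Polynomial.algEquivOfTranscendental K x hx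

theorem l4_coe_polyEquiv (x : F) (hx : Transcendental K x) (P : K[X]) :
    ((l4_polyEquiv K x hx P : Algebra.adjoin K {x}) : F) = Polynomial.aeval x P := by
  simp [l4_polyEquiv, Polynomial.algEquivOfTranscendental_apply]

theorem l4_polyEquiv_X (x : F) (hx : Transcendental K x) : l4_polyEquiv K x hx X = genAdj x :=
  Subtype.ext (by rw [l4_coe_polyEquiv]; simp [genAdj])

theorem l4_polyEquiv_C (x : F) (hx : Transcendental K x) (a : K) :
    l4_polyEquiv K x hx (C a) = algebraMap K (Algebra.adjoin K {x}) a :=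
  Subtype.ext (by rw [l4_coe_polyEquiv]; simp)

theorem l4_polyEquiv_X_sub_C (x : F) (hx : Transcendental K x) (c : K) :
    l4_polyEquiv K x hx (X - C c) = piAt K x c := by
  rw [map_sub, l4_polyEquiv_X, l4_polyEquiv_C]
  rfl

/-- transport of divisibility by powers of `x - c`. -/
theorem l4_piAt_pow_dvd_iff (x : F) (hx : Transcendental K x) (c : K) (m : ℕ) (P : K[X]) :
    piAt K x c ^ m ∣ l4_polyEquiv K x hx P ↔ (X - C c) ^ m ∣ P := by
  rw [← l4_polyEquiv_X_sub_C x hx c, ← map_pow]
  exact map_dvd_iff (l4_polyEquiv K x hx)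

/-- the image of a polynomial in `K(x)`. -/
theorem l4_algebraMap_polyEquiv (x : F) (hx : Transcendental K x) (P : K[X]) :
    algebraMap (Algebra.adjoin K {x}) K⟮x⟯ (l4_polyEquiv K x hx P) =
      Polynomial.aeval (⟨x, mem_adjoin_simple_self K x⟩ : K⟮x⟯) P := by
  apply Subtype.ext
  rw [IntermediateField.algebraAdjoinAdjoin.coe_algebraMap, l4_coe_polyEquiv]
  have h : ((Polynomial.aeval (⟨x, mem_adjoin_simple_self K x⟩ : K⟮x⟯) P : K⟮x⟯) : F) =
      Polynomial.aeval ((⟨x, mem_adjoin_simple_self K x⟩ : K⟮x⟯) : F) P := by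
    rw [← IntermediateField.algebraMap_apply, ← Polynomial.aeval_algebraMap_apply]
    rfl
  rw [h]

variable (K) in
/-- evaluation at `x = c` on `K[x]`. -/
def l4_evalAt (x : F) (hx : Transcendental K x) (c : K) : Algebra.adjoin K {x} →+* K :=
  ((Polynomial.aeval c : K[X] →ₐ[K] K).comp (l4_polyEquiv K x hx).symm.toAlgHom).toRingHom

theorem l4_evalAt_polyEquiv (x : F) (hx : Transcendental K x) (c : K) (P : K[X]) :
    l4_evalAt K x hx c (l4_polyEquiv K x hx P) = P.eval c := by
  simp [l4_evalAt]

theorem l4_isEvalAt_evalAt (x : F) (hx : Transcendental K x) (c : K) :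
    IsEvalAt x c (l4_evalAt K x hx c) := by
  constructor
  · rw [← l4_polyEquiv_X x hx, l4_evalAt_polyEquiv, Polynomial.eval_X]
  · intro a
    rw [← l4_polyEquiv_C x hx, l4_evalAt_polyEquiv, Polynomial.eval_C]

theorem l4_evalAt_surjective (x : F) (hx : Transcendental K x) (c : K) :
    Function.Surjective (l4_evalAt K x hx c) := fun a =>
  ⟨algebraMap K _ a, (l4_isEvalAt_evalAt x hx c).2 a⟩

theorem l4_ker_evalAt (x : F) (hx : Transcendental K x) (c : K) :
    RingHom.ker (l4_evalAt K x hx c) = Ideal.span {piAt K x c} := by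
  ext y
  obtain ⟨P, rfl⟩ := (l4_polyEquiv K x hx).surjective y
  rw [RingHom.mem_ker, l4_evalAt_polyEquiv, Ideal.mem_span_singleton,
    ← pow_one (piAt K x c), l4_piAt_pow_dvd_iff, pow_one, Polynomial.dvd_iff_isRoot,
    Polynomial.IsRoot.def]

/-- an evaluation at `c` is THE evaluation at `c`. -/
theorem l4_eq_evalAt_of_isEvalAt (x : F) (hx : Transcendental K x) (c : K)
    (ev : Algebra.adjoin K {x} →+* K) (hev : IsEvalAt x c ev) : ev = l4_evalAt K x hx c := by
  have h : ev.comp (l4_polyEquiv K x hx).toAlgHom.toRingHom =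
      (l4_evalAt K x hx c).comp (l4_polyEquiv K x hx).toAlgHom.toRingHom := by
    apply Polynomial.ringHom_ext
    · intro a
      have h1 := hev.2 a
      have h2 := (l4_isEvalAt_evalAt x hx c).2 a
      change ev (l4_polyEquiv K x hx (C a)) = l4_evalAt K x hx c (l4_polyEquiv K x hx (C a))
      rw [l4_polyEquiv_C, h1, h2]
    · have h1 := hev.1
      have h2 := (l4_isEvalAt_evalAt x hx c).1
      change ev (l4_polyEquiv K x hx X) = l4_evalAt K x hx c (l4_polyEquiv K x hx X)
      rw [l4_polyEquiv_X, h1, h2]
  ext y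
  obtain ⟨P, rfl⟩ := (l4_polyEquiv K x hx).surjective y
  exact congrArg (fun f => f P) h

/-! ### `numPts` of the integral closure is `fibreCard` -/

theorem l4_mem_intCl_iff (x y : F) :
    y ∈ intCl K x ↔ IsIntegral (Algebra.adjoin K {x}) y := Iff.rfl

/-- the points of ALG-1/ALG-2 over `ev = evaluation at c` are the points of the fibre. -/
def l4_numPtsEquiv (x : F) (hx : Transcendental K x) (c : K)
    (ev : Algebra.adjoin K {x} →+* K) (hev : IsEvalAt x c ev) :
    {χ : (integralClosure (Algebra.adjoin K {x}) F) →+* K //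
        ∀ r : Algebra.adjoin K {x},
          χ (algebraMap (Algebra.adjoin K {x}) (integralClosure (Algebra.adjoin K {x}) F) r)
            = ev r} ≃
      {χ : intCl K x →ₐ[K] K // ∀ h : x ∈ intCl K x, χ ⟨x, h⟩ = c} where
  toFun χ := ⟨{ toRingHom := (χ.1 : (integralClosure (Algebra.adjoin K {x}) F) →+* K)
                commutes' := fun a => by
                  have h1 := χ.2 (algebraMap K (Algebra.adjoin K {x}) a)
                  rw [hev.2 a] at h1
                  exact h1 },
    fun h => by
      have h1 := χ.2 (genAdj x)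
      rw [hev.1] at h1
      exact h1⟩
  invFun χ := ⟨(χ.1 : intCl K x →+* K), fun r => by
    have h1 : IsEvalAt x c (((χ.1 : intCl K x →+* K)).comp
        (algebraMap (Algebra.adjoin K {x}) (integralClosure (Algebra.adjoin K {x}) F))) := by
      constructor
      · exact χ.2 _
      · intro a
        exact χ.1.commutes a
    have h2 := l4_eq_evalAt_of_isEvalAt x hx c _ h1
    have h3 := l4_eq_evalAt_of_isEvalAt x hx c ev hev
    rw [h3, ← h2]
    rfl⟩
  left_inv χ := rfl
  right_inv χ := rfl

theorem l4_numPts_integralClosure_eq_fibreCard (x : F) (hx : Transcendental K x) (c : K)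
    (ev : Algebra.adjoin K {x} →+* K) (hev : IsEvalAt x c ev) :
    numPts (Algebra.adjoin K {x}) F (integralClosure (Algebra.adjoin K {x}) F) ev =
      fibreCard K x c :=
  Nat.card_congr (l4_numPtsEquiv x hx c ev hev)

end EvalAt

end

end Fermat.Agent.S27GR
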