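import Fermat.Agent.S27.GR.LiftStatements
import Fermat.Agent.S27.GR.RootsRed
import Fermat.Agent.S27.GR.LiftEval

/-!
# Cluster B / GoodRed, step (L4): assembly of the LIFT STEP (helper21)

`liftStep_of` : from a lifted basis (L1), the index statement (L2), the roots lemma (L3,
`RootsRed.lean`) and the tame discriminant bound (ALG-2, `DiscUpperTame` for
`R = K[x]`, `Kx = K(x)`, `L = F`), we get `LiftStep M n BD`.

`liftStep` : the same with (L1), (L2) as `Prop`s.
-/

set_option autoImplicit false

namespace Fermat.Agent.S27GR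

open Polynomial IntermediateField
open scoped IntermediateField.algebraAdjoinAdjoin

noncomputable section

universe uK uk uF uFk

variable {K : Type uK} {k : Type uk} {F : Type uF} {Fk : Type uFk}
  [Field K] [Field k] [Field F] [Field Fk] [Algebra K F] [Algebra k Fk]

/-- (ALG-2) at the evaluation `x = c`, in polynomial language:
if `(X - c)^m ∣ dK` where `dK(x)` is the Gram determinant of a `K[x]`-basis `β` of the integral
closure, then `m + fibreCard K x c ≤ n`. -/
theorem add_fibreCard_le_of_pow_dvd [IsAlgClosed K] [CharZero K]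
    (x : F) (hx : Transcendental K x) (n : ℕ)
    (hfin : Module.finrank K⟮x⟯ F = n) (hpos : 0 < n)
    (hA2 : DiscUpperTame.{_, _, _, uK} (Algebra.adjoin K {x}) K⟮x⟯ F)
    (β : Fin n → F) (dK : K[X])
    (hβint : ∀ i, β i ∈ intCl K x) (hβLI : LinearIndependent K⟮x⟯ β)
    (hβspan : ∀ y ∈ intCl K x, ∃ c : Fin n → Algebra.adjoin K {x}, y = ∑ i, c i • β i)
    (hdK : Polynomial.aeval (⟨x, mem_adjoin_simple_self K x⟩ : K⟮x⟯) dK = gramDet K⟮x⟯ F β)
    (c : K) (m : ℕ) (hm : (X - C c) ^ m ∣ dK) :
    m + fibreCard K x c ≤ n := by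
  have : FiniteDimensional K⟮x⟯ F := Module.finite_of_finrank_pos (by rw [hfin]; exact hpos)
  have : CharZero K⟮x⟯ := charZero_of_injective_algebraMap (algebraMap K K⟮x⟯).injective
  have : Algebra.IsSeparable K⟮x⟯ F := inferInstance
  have h := hA2 n β (fun i => hβint i) hβLI hfin (fun y hy => hβspan y hy) K
    (l4_evalAt K x hx c) (l4_evalAt_surjective x hx c) (piAt K x c) (l4_ker_evalAt x hx c)
    (l4_polyEquiv K x hx dK) m (by rw [l4_algebraMap_polyEquiv, hdK])
    ((l4_piAt_pow_dvd_iff x hx c m dK).mpr hm)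
  rwa [l4_numPts_integralClosure_eq_fibreCard x hx c _ (l4_isEvalAt_evalAt x hx c)] at h

/-- **(L4)** the LIFT STEP from a lifted basis (L1), the index statement (L2), the roots lemma
(L3) and the tame discriminant bound (ALG-2). -/
theorem liftStep_of [IsAlgClosed K] [CharZero K] (M : RedModel K k F Fk) (n : ℕ)
    (hdeg : DegData M n) (BD : BranchData M n)
    (hA2 : DiscUpperTame.{_, _, _, uK} (Algebra.adjoin K {M.x}) K⟮M.x⟯ F)
    (LB : LiftedBasis M n) (hL2 : IndexNoRoot M n LB) : LiftStep M n BD := by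
  classical
  have hx : Transcendental K M.x := M.l4_x_transcendental
  have hxb : Transcendental k M.xbar := M.x_trans
  obtain ⟨β, I, dK, hβint, hβLI, hβspan, hdK, hD, hI⟩ := hL2
  -- (ALG-2) in polynomial language
  have key : ∀ (c : K) (m : ℕ), (X - C c) ^ m ∣ dK → m + fibreCard K M.x c ≤ n :=
    fun c m hm => add_fibreCard_le_of_pow_dvd M.x hx n hdeg.deg hdeg.pos hA2 β dK hβint hβLI
      hβspan hdK c m hm
  -- nonvanishing
  have hD0 : LB.D ≠ 0 := by
    intro h0
    apply LB.D_bar_ne
    rw [h0, Polynomial.map_zero]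
  have hDK0 : LB.D.map M.A.subtype ≠ 0 := by
    intro h0
    apply hD0
    apply map_subtype_injective
    rw [h0, Polynomial.map_zero]
  have hI2dK : I ^ 2 * dK ≠ 0 := by rw [← hD]; exact hDK0
  have hI0 : I ^ 2 ≠ 0 := left_ne_zero_of_mul hI2dK
  -- multiplicities of roots in `A`
  have hmult : ∀ r : M.A, LB.D.rootMultiplicity r = dK.rootMultiplicity (r : K) := by
    intro r
    rw [Polynomial.eq_rootMultiplicity_map (f := M.A.subtype) Subtype.val_injective r, hD,
      Polynomial.rootMultiplicity_mul hI2dK]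
    have h1 : (I ^ 2).rootMultiplicity (r : K) = 0 := by
      rw [Polynomial.rootMultiplicity_eq_zero_iff]
      intro hroot
      exfalso
      rw [Polynomial.IsRoot.def, Polynomial.eval_pow] at hroot
      exact hI (r : K) r.2 (pow_eq_zero_iff (two_ne_zero) |>.mp hroot)
    have h2 : M.A.subtype r = (r : K) := rfl
    rw [h2, h1, zero_add]
  -- roots in `A` are branch values
  have hrootS : ∀ r : M.A, LB.D.IsRoot r → (r : K) ∈ BD.S := by
    intro r hr
    by_contra hS
    have h1 : 0 < LB.D.rootMultiplicity r := (Polynomial.rootMultiplicity_pos hD0).mpr hr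
    rw [hmult r] at h1
    have h2 := key (r : K) _ (Polynomial.pow_rootMultiplicity_dvd dK (r : K))
    rw [BD.unram (r : K) hS] at h2
    omega
  refine ⟨fun i => M.rho ⟨LB.b i, LB.mem_O i⟩, LB.basis,
    l4_polyEquiv k M.xbar hxb (LB.D.map M.res), ?_, ?_, ?_⟩
  · rw [l4_algebraMap_polyEquiv, ← LB.D_gram_bar]
    rfl
  · intro h0
    apply LB.D_bar_ne
    apply (l4_polyEquiv k M.xbar hxb).injective
    rw [h0, map_zero]
  · intro c hc m hm
    rw [l4_piAt_pow_dvd_iff] at hm
    have hm1 : m ≤ (LB.D.map M.res).rootMultiplicity (M.res ⟨c, hc⟩) :=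
      (Polynomial.le_rootMultiplicity_iff LB.D_bar_ne).mpr hm
    rw [rootMultiplicity_map_res M.res_eq_zero LB.D LB.D_bar_ne] at hm1
    have hfil : ∀ r ∈ LB.D.roots.filter (fun r => M.res r = M.res ⟨c, hc⟩),
        (r : K) ∈ BD.S ∧ M.res r = M.res ⟨c, hc⟩ := by
      intro r hr
      rw [Multiset.mem_filter] at hr
      exact ⟨hrootS r ((Polynomial.mem_roots hD0).mp hr.1), hr.2⟩
    constructor
    · intro hcS
      have hall : ∀ r ∈ LB.D.roots.filter (fun r => M.res r = M.res ⟨c, hc⟩),
          r = (⟨c, hc⟩ : M.A) := by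
        intro r hr
        obtain ⟨h1, h2⟩ := hfil r hr
        exact Subtype.ext (BD.S_inj (r : K) h1 c hcS r.2 hc h2)
      have hrep := Multiset.eq_replicate_card.mpr hall
      have hcount : Multiset.card (LB.D.roots.filter (fun r => M.res r = M.res ⟨c, hc⟩)) ≤
          LB.D.rootMultiplicity (⟨c, hc⟩ : M.A) := by
        rw [← Polynomial.count_roots]
        calc Multiset.card (LB.D.roots.filter (fun r => M.res r = M.res ⟨c, hc⟩))
            = Multiset.count (⟨c, hc⟩ : M.A)
                (LB.D.roots.filter (fun r => M.res r = M.res ⟨c, hc⟩)) := by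
              conv_rhs => rw [hrep]
              rw [Multiset.count_replicate_self]
          _ ≤ Multiset.count (⟨c, hc⟩ : M.A) LB.D.roots :=
              Multiset.count_le_of_le _ (Multiset.filter_le _ _)
      rw [hmult ⟨c, hc⟩] at hcount
      have h2 := key c _ (Polynomial.pow_rootMultiplicity_dvd dK c)
      have h3 : (((⟨c, hc⟩ : M.A)) : K) = c := rfl
      rw [h3] at hcount
      omega
    · intro hno
      have hempty : LB.D.roots.filter (fun r => M.res r = M.res ⟨c, hc⟩) = 0 := by
        apply Multiset.eq_zero_of_forall_notMem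
        intro r hr
        obtain ⟨h1, h2⟩ := hfil r hr
        exact hno (r : K) h1 r.2 h2
      rw [hempty, Multiset.card_zero] at hm1
      omega

/-- **(L4)** `LiftStep` from (L1), (L2) as `Prop`s and (ALG-2). -/
theorem liftStep [IsAlgClosed K] [CharZero K] (M : RedModel K k F Fk) (n : ℕ)
    (hdeg : DegData M n) (BD : BranchData M n)
    (hA2 : DiscUpperTame.{_, _, _, uK} (Algebra.adjoin K {M.x}) K⟮M.x⟯ F)
    (hL1 : LiftBasisStep M n) (hL2 : ∀ LB : LiftedBasis M n, IndexNoRoot M n LB) :
    LiftStep M n BD := by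
  obtain ⟨LB⟩ := hL1
  exact liftStep_of M n hdeg BD hA2 LB (hL2 LB)

end

end Fermat.Agent.S27GR
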