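import Fermat.Agent.S27.GR.LiftStatements

/-!
# Cluster B / GoodRed (L2): the index of a lifted basis has no root in `A`
Owner: helper27.  Blueprint: NOTES/blueprint-B-GoodRed.md, section 2 (L).

`indexNoRoot : DegData M n → (LB : LiftedBasis M n) → IndexNoRoot M n LB`
(`K` algebraically closed of characteristic `0`).

Proof.  `β` = a `K[x]`-basis of the integral closure of `K[x]` in `F` (Mathlib: integral closure
of a PID in a finite separable extension is free of rank `n`), `b = P β`, `I = det P`,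
`disc b = I ^ 2 disc β`.  If `I(c) = 0`, `c ∈ A`: a nonzero `a ∈ K ^ n` in the left kernel of
`P(c)`, scaled to `a ∈ A ^ n` with `a i₀ = 1`, gives `Σ a i b i = (x - c) f₀` with `f₀` integral
over `K[x]`; `x - c` is a unit of `O`, so `f₀ ∈ B₀` and `ρ f₀ = Σ g i b̄ i` with `g i ∈ k[x̄]`;
comparing coefficients `(x̄ - c̄) g i₀ = 1` in `k[x̄]`, impossible.
-/

set_option autoImplicit false
set_option linter.style.haveILetI false
set_option linter.unusedVariables false
set_option linter.deprecated false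

namespace Fermat.Agent.S27GR

open Polynomial IntermediateField
open scoped IntermediateField.algebraAdjoinAdjoin

noncomputable section

variable {K k F Fk : Type*} [Field K] [Field k] [Field F] [Field Fk] [Algebra K F] [Algebra k Fk]

/-- `gramDet` is Mathlib's discriminant. -/
theorem li_gramDet_eq_discr {Kx L : Type*} [Field Kx] [Field L] [Algebra Kx L] {n : ℕ}
    (b : Fin n → L) : gramDet Kx L b = Algebra.discr Kx b := rfl

/-- in a valuation ring: a nonzero vector can be scaled to have entries in `A`, one of them `1`. -/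
theorem li_exists_max (A : ValuationSubring K) {n : ℕ} (a : Fin n → K) (ha : a ≠ 0) :
    ∃ i₀, a i₀ ≠ 0 ∧ ∀ i, a i / a i₀ ∈ A := by
  have hne : ∃ i, a i ≠ 0 := by
    by_contra h
    simp only [not_exists, not_not] at h
    exact ha (funext h)
  obtain ⟨i₁, hi₁⟩ := hne
  haveI : Nonempty (Fin n) := ⟨i₁⟩
  obtain ⟨i₀, -, hi₀⟩ := Finset.exists_max_image (Finset.univ : Finset (Fin n))
    (fun i => A.valuation (a i)) ⟨i₁, Finset.mem_univ _⟩
  have h0 : a i₀ ≠ 0 := by
    intro h
    have h1 := hi₀ i₁ (Finset.mem_univ _)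
    rw [h, map_zero] at h1
    have h2 : A.valuation (a i₁) ≠ 0 := (Valuation.ne_zero_iff _).mpr hi₁
    exact h2 (le_antisymm h1 zero_le')
  refine ⟨i₀, h0, fun i => ?_⟩
  rw [← A.valuation_le_one_iff, map_div₀]
  have h2 : A.valuation (a i₀) ≠ 0 := (Valuation.ne_zero_iff _).mpr h0
  rw [div_le_iff₀ (zero_lt_iff.mpr h2), one_mul]
  exact hi₀ i (Finset.mem_univ _)

/-- the generator of `K(x)`. -/
abbrev li_gen (x : F) : K⟮x⟯ := ⟨x, mem_adjoin_simple_self K x⟩

theorem li_aeval_gen_coe (x : F) (p : Polynomial K) :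
    ((Polynomial.aeval (li_gen (K := K) x) p : K⟮x⟯) : F) = Polynomial.aeval x p := by
  have : (Polynomial.aeval x p : F) = algebraMap K⟮x⟯ F (Polynomial.aeval (li_gen (K := K) x) p) := by
    rw [← Polynomial.aeval_algebraMap_apply]
    rfl
  rw [this]
  rfl

theorem li_aeval_gen_injective {x : F} (hx : Transcendental K x) :
    Function.Injective (Polynomial.aeval (R := K) (li_gen (K := K) x)) := by
  intro p q hpq
  have h1 := congrArg (fun z : K⟮x⟯ => (z : F)) hpq
  simp only [li_aeval_gen_coe] at h1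
  exact (transcendental_iff_injective.mp hx) h1

theorem li_aeval_mem_intCl (x : F) (p : Polynomial K) : Polynomial.aeval x p ∈ intCl K x := by
  have hxm : x ∈ intCl K x := by
    have h : (algebraMap (Algebra.adjoin K {x}) F) (genAdj x) ∈
        integralClosure (Algebra.adjoin K {x}) F := Subalgebra.algebraMap_mem _ _
    exact h
  rw [← Polynomial.aeval_subalgebra_coe p (intCl K x) ⟨x, hxm⟩]
  exact Subtype.property _

/-- elements of the base ring as polynomials. -/
theorem li_exists_poly (x : F) (r : Algebra.adjoin K {x}) :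
    ∃ p : Polynomial K, (r : F) = Polynomial.aeval x p := by
  obtain ⟨p, hp⟩ := Algebra.adjoin_mem_exists_aeval _ _ r.2
  exact ⟨p, hp.symm⟩


/-- `K[x]` is a principal ideal ring (`x` transcendental). -/
theorem li_isPrincipalIdealRing {x : F} (hx : Transcendental K x) :
    IsPrincipalIdealRing (Algebra.adjoin K {x}) :=
  IsPrincipalIdealRing.of_surjective
    (Polynomial.algEquivOfTranscendental K x hx).toAlgHom.toRingHom
    (Polynomial.algEquivOfTranscendental K x hx).surjective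

/-- A `K[x]`-basis of the integral closure of `K[x]` in `F`. -/
theorem li_exists_integral_basis {x : F} (hx : Transcendental K x) (n : ℕ)
    [FiniteDimensional K⟮x⟯ F] [Algebra.IsSeparable K⟮x⟯ F]
    (hn : Module.finrank K⟮x⟯ F = n) :
    ∃ β : Fin n → F, (∀ i, β i ∈ intCl K x) ∧ LinearIndependent K⟮x⟯ β ∧
      ∀ y ∈ intCl K x, ∃ c : Fin n → Algebra.adjoin K {x}, y = ∑ i, c i • β i := by
  classical
  have := li_isPrincipalIdealRing hx
  let R := Algebra.adjoin K {x}
  let C := integralClosure R F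
  have : Module.Free R C := IsIntegralClosure.module_free R K⟮x⟯ F C
  have : IsNoetherian R C := IsIntegralClosure.isNoetherian R K⟮x⟯ F C
  have : IsLocalization (Algebra.algebraMapSubmonoid C (nonZeroDivisors R)) F :=
    IsIntegralClosure.isLocalization R K⟮x⟯ F C
  let bC := Module.Free.chooseBasis R C
  let bF := Module.Basis.localizationLocalization K⟮x⟯ (nonZeroDivisors R) F bC
  have hcard : Fintype.card (Module.Free.ChooseBasisIndex R C) = n := by
    rw [← hn, Module.finrank_eq_card_basis bF]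
  let e : Module.Free.ChooseBasisIndex R C ≃ Fin n := Fintype.equivFinOfCardEq hcard
  refine ⟨fun i => (bC (e.symm i) : F), fun i => (bC (e.symm i)).2, ?_, ?_⟩
  · have h1 : LinearIndependent K⟮x⟯ bF := bF.linearIndependent
    have h2 : (fun i : Fin n => ((bC (e.symm i) : C) : F)) = bF ∘ e.symm := by
      funext i
      simp [bF, Module.Basis.localizationLocalization_apply]
    rw [h2]
    exact h1.comp _ e.symm.injective
  · intro y hy
    have hyC : y ∈ C := hy
    obtain ⟨z, rfl⟩ : ∃ z : C, (z : F) = y := ⟨⟨y, hyC⟩, rfl⟩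
    refine ⟨fun i => bC.repr z (e.symm i), ?_⟩
    have h3 := bC.sum_repr z
    have h4 : ((∑ i, (bC.repr z) i • bC i : C) : F) = (z : F) := congrArg Subtype.val h3
    rw [← e.symm.sum_comp] at h4
    rw [← h4]
    simp only [AddSubmonoidClass.coe_finset_sum]
    rfl


namespace RedModel

variable (M : RedModel K k F Fk)

/-- elements of `K` outside `A` do not lie in `O`. -/
theorem li_mem_A_of_mem_O {c : K} (h : algebraMap K F c ∈ M.O) : c ∈ M.A := by
  by_contra hc
  have hc0 : c ≠ 0 := fun h0 => hc (h0 ▸ M.A.zero_mem)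
  have hinv : c⁻¹ ∈ M.A := (M.A.mem_or_inv_mem c).resolve_left hc
  have hnu : ¬ IsUnit (⟨c⁻¹, hinv⟩ : M.A) := by
    intro hu
    obtain ⟨u, hu⟩ := hu
    apply hc
    have h1 : ((u⁻¹ : M.Aˣ) : M.A) * ⟨c⁻¹, hinv⟩ = 1 := by
      rw [← hu]; exact u.inv_mul
    have h2 : (((u⁻¹ : M.Aˣ) : M.A) : K) * c⁻¹ = 1 := by
      have := congrArg (Subtype.val) h1
      simpa using this
    have h3 : (((u⁻¹ : M.Aˣ) : M.A) : K) = c := by
      field_simp at h2
      exact h2
    rw [← h3]
    exact ((u⁻¹ : M.Aˣ) : M.A).2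
  have hres : M.res ⟨c⁻¹, hinv⟩ = 0 := (M.res_eq_zero _).mpr hnu
  have hrho : M.rho ⟨algebraMap K F ((⟨c⁻¹, hinv⟩ : M.A) : K), M.map_mem ⟨c⁻¹, hinv⟩⟩ = 0 := by
    rw [M.rho_map, hres, map_zero]
  have hnu' := (M.rho_eq_zero _).mp hrho
  apply hnu'
  refine isUnit_iff_exists_inv.mpr ⟨⟨algebraMap K F c, h⟩, ?_⟩
  apply Subtype.ext
  simp [hc0]

/-- the base parameter is transcendental over `K`. -/
theorem li_x_transcendental [IsAlgClosed K] : Transcendental K M.x := by
  intro halg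
  have hmem : M.x ∈ Set.range (algebraMap K F) := by
    have hint : IsIntegral K M.x := halg.isIntegral
    have hirr := minpoly.irreducible hint
    have hdeg := IsAlgClosed.degree_eq_one_of_irreducible K hirr
    exact minpoly.mem_range_of_degree_eq_one K M.x hdeg
  obtain ⟨c, hc⟩ := hmem
  have hcO : algebraMap K F c ∈ M.O := hc ▸ M.x_mem
  have hcA := M.li_mem_A_of_mem_O hcO
  apply M.x_trans
  have : M.rho ⟨M.x, M.x_mem⟩ = algebraMap k Fk (M.res ⟨c, hcA⟩) := by
    rw [← M.rho_map]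
    congr 1
    apply Subtype.ext
    exact hc.symm
  rw [this]
  exact isAlgebraic_algebraMap _

/-- `x - c` lies in `O` for `c ∈ A`. -/
theorem li_sub_mem (c : M.A) : M.x - algebraMap K F c ∈ M.O :=
  M.O.sub_mem M.x_mem (M.map_mem c)

/-- `x - c` is a unit of `O` for `c ∈ A`. -/
theorem li_isUnit_sub (c : M.A) : IsUnit (⟨M.x - algebraMap K F c, M.li_sub_mem c⟩ : M.O) := by
  by_contra hnu
  have h0 := (M.rho_eq_zero _).mpr hnu
  have h1 : M.rho ⟨M.x - algebraMap K F c, M.li_sub_mem c⟩ =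
      M.rho ⟨M.x, M.x_mem⟩ - algebraMap k Fk (M.res c) := by
    rw [← M.rho_map, ← map_sub]
    rfl
  rw [h1, sub_eq_zero] at h0
  apply M.x_trans
  rw [h0]
  exact isAlgebraic_algebraMap _

theorem li_rho_sub (c : M.A) : M.rho ⟨M.x - algebraMap K F c,
    M.O.sub_mem M.x_mem (M.map_mem c)⟩ = M.xbar - algebraMap k Fk (M.res c) := by
  rw [← M.rho_map, RedModel.xbar, ← map_sub]
  rfl

/-- the reduction of a linear combination with coefficients in `A`. -/
theorem li_rho_sum {n : ℕ} (a : Fin n → K) (ha : ∀ i, a i ∈ M.A) (b : Fin n → F)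
    (hb : ∀ i, b i ∈ M.O) (hg : ∑ i, algebraMap K F (a i) * b i ∈ M.O) :
    M.rho ⟨∑ i, algebraMap K F (a i) * b i, hg⟩ =
      ∑ i, algebraMap k Fk (M.res ⟨a i, ha i⟩) * M.rho ⟨b i, hb i⟩ := by
  have h1 : (⟨∑ i, algebraMap K F (a i) * b i, hg⟩ : M.O) =
      ∑ i, (⟨algebraMap K F (a i), M.map_mem ⟨a i, ha i⟩⟩ : M.O) * ⟨b i, hb i⟩ := by
    apply Subtype.ext
    simp
  rw [h1, map_sum]
  refine Finset.sum_congr rfl fun i _ => ?_
  rw [map_mul]
  congr 1
  exact M.rho_map ⟨a i, ha i⟩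

end RedModel


/-- CORE of (L2): the determinant of the transition matrix has no root in `A`. -/
theorem li_eval_det_ne_zero (M : RedModel K k F Fk) (n : ℕ) (LB : LiftedBasis M n)
    (β : Fin n → F) (hβ : ∀ i, β i ∈ intCl K M.x)
    (P : Matrix (Fin n) (Fin n) (Polynomial K))
    (hP : ∀ i, LB.b i = ∑ j, Polynomial.aeval M.x (P i j) * β j)
    (c : K) (hc : c ∈ M.A) : P.det.eval c ≠ 0 := by
  classical
  intro h0
  -- a nonzero vector in the left kernel of `P(c)`
  have hdet : (P.map (Polynomial.evalRingHom c)).det = 0 := by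
    rw [← RingHom.mapMatrix_apply, ← RingHom.map_det]
    exact h0
  obtain ⟨a₀, ha₀, hker₀⟩ := Matrix.exists_vecMul_eq_zero_iff.mpr hdet
  -- scale it
  obtain ⟨i₀, hi₀, hA⟩ := li_exists_max M.A a₀ ha₀
  let a : Fin n → K := fun i => a₀ i / a₀ i₀
  have haA : ∀ i, a i ∈ M.A := hA
  have hai₀ : a i₀ = 1 := div_self hi₀
  have hker : ∀ j, ∑ i, a i * (P i j).eval c = 0 := by
    intro j
    have := congrFun hker₀ j
    simp only [Matrix.vecMul, dotProduct, Matrix.map_apply, Polynomial.coe_evalRingHom,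
      Pi.zero_apply] at this
    simp only [a, div_mul_eq_mul_div, ← Finset.sum_div, this, zero_div]
  -- the polynomials `r j`
  let r : Fin n → Polynomial K := fun j => ∑ i, Polynomial.C (a i) * P i j
  have hr : ∀ j, (r j).eval c = 0 := by
    intro j
    simp only [r, Polynomial.eval_finsetSum, Polynomial.eval_mul, Polynomial.eval_C]
    exact hker j
  have hq : ∀ j, ∃ q : Polynomial K, r j = (Polynomial.X - Polynomial.C c) * q := by
    intro j
    exact Polynomial.dvd_iff_isRoot.mpr (hr j)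
  choose q hq using hq
  -- the element `g`
  have hgsum : ∑ i, algebraMap K F (a i) * LB.b i =
      (M.x - algebraMap K F c) * ∑ j, Polynomial.aeval M.x (q j) * β j := by
    calc ∑ i, algebraMap K F (a i) * LB.b i
        = ∑ i, ∑ j, algebraMap K F (a i) * (Polynomial.aeval M.x (P i j) * β j) := by
          refine Finset.sum_congr rfl fun i _ => ?_
          rw [hP i, Finset.mul_sum]
      _ = ∑ j, ∑ i, algebraMap K F (a i) * (Polynomial.aeval M.x (P i j) * β j) :=
          Finset.sum_comm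
      _ = ∑ j, Polynomial.aeval M.x (r j) * β j := by
          refine Finset.sum_congr rfl fun j _ => ?_
          simp only [r, map_sum, map_mul, Polynomial.aeval_C, Finset.sum_mul, mul_assoc]
      _ = ∑ j, (M.x - algebraMap K F c) * (Polynomial.aeval M.x (q j) * β j) := by
          refine Finset.sum_congr rfl fun j _ => ?_
          rw [hq j, map_mul, map_sub, Polynomial.aeval_X, Polynomial.aeval_C, mul_assoc]
      _ = _ := by rw [Finset.mul_sum]
  set f₀ : F := ∑ j, Polynomial.aeval M.x (q j) * β j with hf₀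
  have hf₀int : f₀ ∈ intCl K M.x :=
    Subalgebra.sum_mem _ fun j _ => Subalgebra.mul_mem _ (li_aeval_mem_intCl M.x (q j)) (hβ j)
  have hgO : ∑ i, algebraMap K F (a i) * LB.b i ∈ M.O :=
    Subring.sum_mem M.O.toSubring fun i _ =>
      M.O.mul_mem _ _ (M.map_mem ⟨a i, haA i⟩) (LB.mem_O i)
  -- `f₀ ∈ O`
  obtain ⟨u, hu⟩ := M.li_isUnit_sub ⟨c, hc⟩
  have hxc : M.x - algebraMap K F c ≠ 0 := by
    intro h
    have h1 := M.li_rho_sub ⟨c, hc⟩
    have h2 : (⟨M.x - algebraMap K F ((⟨c, hc⟩ : M.A) : K),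
        M.O.sub_mem M.x_mem (M.map_mem ⟨c, hc⟩)⟩ : M.O) = 0 := Subtype.ext h
    rw [h2, map_zero] at h1
    apply M.x_trans
    have h3 : M.rho ⟨M.x, M.x_mem⟩ = algebraMap k Fk (M.res ⟨c, hc⟩) := by
      have := sub_eq_zero.mp h1.symm
      exact this
    rw [h3]
    exact isAlgebraic_algebraMap _
  have hf₀eq : ((⟨_, hgO⟩ * ((u⁻¹ : (M.O)ˣ) : M.O) : M.O) : F) = f₀ := by
    have h1 : (((u⁻¹ : (M.O)ˣ) : M.O) : F) * (M.x - algebraMap K F c) = 1 := by
      have h2 : ((u⁻¹ : (M.O)ˣ) : M.O) * (u : M.O) = 1 := u.inv_mul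
      rw [hu] at h2
      exact congrArg Subtype.val h2
    show (∑ i, algebraMap K F (a i) * LB.b i) * (((u⁻¹ : (M.O)ˣ) : M.O) : F) = f₀
    rw [hgsum]
    calc (M.x - algebraMap K F c) * f₀ * (((u⁻¹ : (M.O)ˣ) : M.O) : F)
        = f₀ * ((((u⁻¹ : (M.O)ˣ) : M.O) : F) * (M.x - algebraMap K F c)) := by ring
      _ = f₀ := by rw [h1, mul_one]
  have hf₀O : f₀ ∈ M.O := hf₀eq ▸ Subtype.property _
  -- reduce
  have hmemB : M.rho ⟨f₀, hf₀O⟩ ∈ M.Bbar := ⟨⟨f₀, hf₀O⟩, hf₀int, rfl⟩
  obtain ⟨gc, hgc⟩ := LB.basis.span _ hmemB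
  have hred : M.rho ⟨_, hgO⟩ = (M.xbar - algebraMap k Fk (M.res ⟨c, hc⟩)) * M.rho ⟨f₀, hf₀O⟩ := by
    rw [← M.li_rho_sub ⟨c, hc⟩, ← map_mul]
    congr 1
    apply Subtype.ext
    exact hgsum
  rw [M.li_rho_sum a haA LB.b LB.mem_O hgO, hgc] at hred
  -- compare coefficients
  have hind := LB.basis.indep
  rw [Fintype.linearIndependent_iff] at hind
  let coef : Fin n → k⟮M.xbar⟯ := fun i =>
    algebraMap k k⟮M.xbar⟯ (M.res ⟨a i, haA i⟩) -
      ((⟨M.xbar, mem_adjoin_simple_self k M.xbar⟩ : k⟮M.xbar⟯) -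
        algebraMap k k⟮M.xbar⟯ (M.res ⟨c, hc⟩)) * algebraMap _ k⟮M.xbar⟯ (gc i)
  have hsum : ∑ i, coef i • M.rho ⟨LB.b i, LB.mem_O i⟩ = 0 := by
    have h1 : ∀ i, coef i • M.rho ⟨LB.b i, LB.mem_O i⟩ =
        algebraMap k Fk (M.res ⟨a i, haA i⟩) * M.rho ⟨LB.b i, LB.mem_O i⟩ -
          (M.xbar - algebraMap k Fk (M.res ⟨c, hc⟩)) *
            (gc i • M.rho ⟨LB.b i, LB.mem_O i⟩) := by
      intro i
      have e1 : ∀ z : k, algebraMap k⟮M.xbar⟯ Fk (algebraMap k k⟮M.xbar⟯ z) = algebraMap k Fk z :=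
        fun z => rfl
      have e2 : algebraMap k⟮M.xbar⟯ Fk (⟨M.xbar, mem_adjoin_simple_self k M.xbar⟩ : k⟮M.xbar⟯) =
          M.xbar := rfl
      have e3 : algebraMap k⟮M.xbar⟯ Fk (algebraMap _ k⟮M.xbar⟯ (gc i)) = ((gc i : Fk)) := rfl
      have e4 : gc i • M.rho ⟨LB.b i, LB.mem_O i⟩ = (gc i : Fk) * M.rho ⟨LB.b i, LB.mem_O i⟩ :=
        rfl
      rw [Algebra.smul_def, e4]
      simp only [coef, map_sub, map_mul, e1, e2, e3]
      ring
    simp only [h1, Finset.sum_sub_distrib, ← Finset.mul_sum]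
    rw [hred, sub_self]
  have hi₀' := hind coef hsum i₀
  have h1 : algebraMap k⟮M.xbar⟯ Fk (coef i₀) = 0 := by rw [hi₀', map_zero]
  obtain ⟨p, hp⟩ := li_exists_poly M.xbar (gc i₀)
  have h2 : algebraMap k⟮M.xbar⟯ Fk (coef i₀) =
      Polynomial.aeval M.xbar (1 - (Polynomial.X - Polynomial.C (M.res ⟨c, hc⟩)) * p) := by
    have h3 : M.res ⟨a i₀, haA i₀⟩ = 1 := by
      have : (⟨a i₀, haA i₀⟩ : M.A) = 1 := Subtype.ext hai₀
      rw [this, map_one]
    have e1 : ∀ z : k, algebraMap k⟮M.xbar⟯ Fk (algebraMap k k⟮M.xbar⟯ z) = algebraMap k Fk z :=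
      fun z => rfl
    have e2 : algebraMap k⟮M.xbar⟯ Fk (⟨M.xbar, mem_adjoin_simple_self k M.xbar⟩ : k⟮M.xbar⟯) =
        M.xbar := rfl
    have e3 : algebraMap k⟮M.xbar⟯ Fk (algebraMap _ k⟮M.xbar⟯ (gc i₀)) = ((gc i₀ : Fk)) := rfl
    simp only [coef, map_sub, map_mul, Polynomial.aeval_X, Polynomial.aeval_C, map_one, ← hp,
      e1, e2, e3, h3]
  rw [h2] at h1
  have h4 := (transcendental_iff_injective.mp M.x_trans) (h1.trans (map_zero _).symm)
  have h5 := congrArg (Polynomial.eval (M.res ⟨c, hc⟩)) h4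
  simp at h5


/-- the Gram determinant of integral elements is a polynomial in `x`. -/
theorem li_exists_gram_poly {x : F} (hx : Transcendental K x) (n : ℕ)
    [FiniteDimensional K⟮x⟯ F] [Algebra.IsSeparable K⟮x⟯ F]
    (β : Fin n → F) (hβ : ∀ i, β i ∈ intCl K x) :
    ∃ dK : Polynomial K, Polynomial.aeval (li_gen (K := K) x) dK = gramDet K⟮x⟯ F β := by
  have := li_isPrincipalIdealRing hx
  have hint : IsIntegral (Algebra.adjoin K {x}) (Algebra.discr K⟮x⟯ β) :=
    Algebra.discr_isIntegral K⟮x⟯ (fun i => hβ i)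
  obtain ⟨d, hd⟩ := IsIntegrallyClosed.isIntegral_iff.mp hint
  obtain ⟨p, hp⟩ := li_exists_poly x d
  refine ⟨p, ?_⟩
  apply Subtype.ext
  rw [li_aeval_gen_coe, ← hp]
  show (d : F) = ((Algebra.discr K⟮x⟯ β : K⟮x⟯) : F)
  rw [← hd]
  rfl

/-- **(L2) the index has no root in `A`.** -/
theorem indexNoRoot [IsAlgClosed K] [CharZero K] (M : RedModel K k F Fk) (n : ℕ)
    (hdeg : DegData M n) (LB : LiftedBasis M n) : IndexNoRoot M n LB := by
  classical
  have hx : Transcendental K M.x := M.li_x_transcendental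
  have hfd : FiniteDimensional K⟮M.x⟯ F :=
    Module.finite_of_finrank_pos (by rw [hdeg.deg]; exact hdeg.pos)
  have hcz : CharZero K⟮M.x⟯ := charZero_of_injective_algebraMap (algebraMap K K⟮M.x⟯).injective
  have hsep : Algebra.IsSeparable K⟮M.x⟯ F := inferInstance
  obtain ⟨β, hβ, hβind, hβspan⟩ := li_exists_integral_basis hx n hdeg.deg
  obtain ⟨dK, hdK⟩ := li_exists_gram_poly hx n β hβ
  -- transition matrix
  have hP : ∀ i, ∃ p : Fin n → Polynomial K, LB.b i = ∑ j, Polynomial.aeval M.x (p j) * β j := by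
    intro i
    obtain ⟨c, hc⟩ := hβspan (LB.b i) (LB.mem_int i)
    have hc' : ∀ j, ∃ p : Polynomial K, (c j : F) = Polynomial.aeval M.x p :=
      fun j => li_exists_poly M.x (c j)
    choose p hp using hc'
    refine ⟨p, ?_⟩
    rw [hc]
    refine Finset.sum_congr rfl fun j _ => ?_
    rw [← hp j]
    rfl
  choose P hP using hP
  let PM : Matrix (Fin n) (Fin n) (Polynomial K) := Matrix.of P
  have hPM : ∀ i, LB.b i = ∑ j, Polynomial.aeval M.x (PM i j) * β j := hP
  refine ⟨β, PM.det, dK, hβ, hβind, hβspan, hdK, ?_, ?_⟩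
  · apply li_aeval_gen_injective hx
    have h1 : Polynomial.aeval (li_gen (K := K) M.x) (LB.D.map M.A.subtype) =
        gramDet K⟮M.x⟯ F LB.b := by
      rw [← LB.D_gram]
      rfl
    rw [h1, map_mul, map_pow, hdK]
    -- discriminant of a transformed family
    let P' : Matrix (Fin n) (Fin n) K⟮M.x⟯ :=
      PM.map (Polynomial.aeval (li_gen (K := K) M.x))
    have h2 : LB.b = (P'.map (algebraMap K⟮M.x⟯ F)).mulVec β := by
      funext i
      rw [hPM i]
      simp only [Matrix.mulVec, dotProduct, Matrix.map_apply, P']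
      refine Finset.sum_congr rfl fun j _ => ?_
      congr 1
      exact (li_aeval_gen_coe M.x (PM i j)).symm
    have h3 : P'.det = Polynomial.aeval (li_gen (K := K) M.x) PM.det := by
      have := RingHom.map_det (Polynomial.aeval (R := K) (li_gen (K := K) M.x)).toRingHom PM
      exact this.symm
    have h4 := Algebra.discr_of_matrix_mulVec (A := K⟮M.x⟯) β P'
    show Algebra.discr K⟮M.x⟯ LB.b = _
    rw [h2, h4, h3]
    rfl
  · intro c hc
    exact li_eval_det_ne_zero M n LB β hβ PM hPM c hc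


end

end Fermat.Agent.S27GR
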