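import Fermat.Agent.S27.GR.TraceRed
import Fermat.Agent.S27.GR.LiftBasis
import Fermat.Agent.S27.GR.LiftIndex
import Fermat.Agent.S27.GR.Lift

/-!
# Cluster B / GoodRed, step (L): the LIFT STEP, closed form (helper21)

`liftStep_closed` : `DegData M n` + `BranchData M n` + (ALG-2) for `K[x] ⊆ K(x) ⊆ F`
imply `LiftStep M n BD`.  Assembles (T) `charpolyRed` (helper77), (L1) `liftBasisStep` (helper9),
(L2) `indexNoRoot` (helper27), (L3) `rootMultiplicity_map_res` (helper7), (L4) `liftStep`.
-/

set_option autoImplicit false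

namespace Fermat.Agent.S27GR

open Polynomial IntermediateField
open scoped IntermediateField.algebraAdjoinAdjoin

universe uK uk uF uFk

variable {K : Type uK} {k : Type uk} {F : Type uF} {Fk : Type uFk}
  [Field K] [Field k] [Field F] [Field Fk] [Algebra K F] [Algebra k Fk]

/-- **(L)** the LIFT STEP: only (ALG-2) remains as a hypothesis. -/
theorem liftStep_closed [IsAlgClosed K] [CharZero K] (M : RedModel K k F Fk) (n : ℕ)
    (hdeg : DegData M n) (BD : BranchData M n)
    (hA2 : DiscUpperTame.{_, _, _, uK} (Algebra.adjoin K {M.x}) K⟮M.x⟯ F) : LiftStep M n BD :=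
  liftStep M n hdeg BD hA2 (M.liftBasisStep (charpolyRed M n hdeg) hdeg) (indexNoRoot M n hdeg)

end Fermat.Agent.S27GR
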